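/-
S48 (Deligne–Serre), piece (P4) "elementary Rankin bound", part 2 (helper648).

Pure real analysis on nonnegative sequences `b : ℕ → ℝ` with `∑_{n ≤ x} b n ≤ C x^κ`:
* `sum_mul_rpow_neg_le` : every finite partial sum of `∑ b n n^{-σ}` is `≤ 2^(κ+1) C / (σ - κ)`
  for `κ < σ ≤ κ + 1` (dyadic decomposition; no integrals, no `tsum`);
* `prod_one_add_le` : Euler product inequality for sequences multiplicative on squarefree
  products of primes from a set `S`;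
* `sum_primes_le_log` / `sum_primes_ge_le_log` : `∑_{p ∈ P} b p p^{-σ} ≤ log (1/(σ-1)) + O(1)` on
  sets of primes where `b` is bounded, and `c ∑_{p ∈ P, b p ≥ c} p^{-σ} ≤ log (1/(σ-1)) + O(1)`.
Mathlib only.
-/
import Mathlib

set_option autoImplicit false

open Finset

noncomputable section

namespace Fermat.Agent.S48.H648

/-- `1 - 2^(-δ) ≥ δ/2` for `0 ≤ δ ≤ 1`. -/
lemma one_sub_two_rpow_neg_ge {δ : ℝ} (h0 : 0 ≤ δ) (h1 : δ ≤ 1) :
    δ / 2 ≤ 1 - (2:ℝ) ^ (-δ) := by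
  have h := Real.geom_mean_le_arith_mean2_weighted (w₁ := 1 - δ) (w₂ := δ) (p₁ := 1)
    (p₂ := 1 / 2) (by linarith) h0 (by norm_num) (by norm_num) (by ring)
  rw [Real.one_rpow, one_mul] at h
  have h2 : ((1:ℝ) / 2) ^ δ = (2:ℝ) ^ (-δ) := by
    rw [Real.rpow_neg (by norm_num), one_div, Real.inv_rpow (by norm_num)]
  rw [h2] at h
  linarith

/-- Dyadic bound: finite partial sums of the Dirichlet series of a nonnegative sequence with
`∑_{n ≤ x} b n ≤ C x^κ`. -/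
theorem sum_mul_rpow_neg_le {b : ℕ → ℝ} (hb : ∀ n, 0 ≤ b n) {C κ : ℝ} (hC : 0 ≤ C) (hκ : 0 ≤ κ)
    (hsum : ∀ x : ℕ, 1 ≤ x → ∑ n ∈ range (x + 1), b n ≤ C * (x : ℝ) ^ κ)
    {σ : ℝ} (hσ : κ < σ) (hσ' : σ ≤ κ + 1) (s : Finset ℕ) (hs : ∀ n ∈ s, 1 ≤ n) :
    ∑ n ∈ s, b n * (n : ℝ) ^ (-σ) ≤ 2 ^ (κ + 1) * C / (σ - κ) := by
  classical
  set δ := σ - κ with hδ
  have hδ0 : 0 < δ := by linarith
  have hδ1 : δ ≤ 1 := by linarith
  have hσ0 : 0 < σ := lt_of_le_of_lt hκ hσ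
  set r : ℝ := (2:ℝ) ^ (-δ) with hr
  have hr0 : 0 < r := by positivity
  have hr1 : r < 1 := by
    rw [hr]; exact Real.rpow_lt_one_of_one_lt_of_neg (by norm_num) (by linarith)
  -- the index of the dyadic block
  let J : ℕ := (s.sup id) + 1
  have hmaps : ∀ n ∈ s, Nat.log 2 n ∈ range J := by
    intro n hn
    rw [mem_range]
    have h1 : Nat.log 2 n ≤ n := Nat.log_le_self 2 n
    have h2 : n ≤ s.sup id := Finset.le_sup (f := id) hn
    omega
  rw [← Finset.sum_fiberwise_of_maps_to hmaps]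
  have hblock : ∀ j ∈ range J, ∑ n ∈ s with Nat.log 2 n = j, b n * (n : ℝ) ^ (-σ) ≤
      C * 2 ^ κ * r ^ j := by
    intro j _
    have h1 : ∀ n ∈ s.filter (fun n => Nat.log 2 n = j),
        b n * (n : ℝ) ^ (-σ) ≤ b n * ((2:ℝ) ^ j) ^ (-σ) := by
      intro n hn
      rw [mem_filter] at hn
      have hn1 : 1 ≤ n := hs n hn.1
      have h2 : 2 ^ j ≤ n := by
        rw [← hn.2]; exact Nat.pow_log_le_self 2 (by omega)
      have h3 : ((2:ℝ) ^ j) ≤ (n : ℝ) := by exact_mod_cast h2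
      have h4 : (n : ℝ) ^ (-σ) ≤ ((2:ℝ) ^ j) ^ (-σ) :=
        Real.rpow_le_rpow_of_nonpos (by positivity) h3 (by linarith)
      exact mul_le_mul_of_nonneg_left h4 (hb n)
    have h5 : ∑ n ∈ s.filter (fun n => Nat.log 2 n = j), b n ≤
        ∑ n ∈ range (2 ^ (j + 1) + 1), b n := by
      refine Finset.sum_le_sum_of_subset_of_nonneg ?_ fun n _ _ => hb n
      intro n hn
      rw [mem_filter] at hn
      rw [mem_range]
      have : n < 2 ^ (Nat.log 2 n + 1) := Nat.lt_pow_succ_log_self (by norm_num) n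
      rw [hn.2] at this
      omega
    have h6 := hsum (2 ^ (j + 1)) Nat.one_le_two_pow
    calc ∑ n ∈ s with Nat.log 2 n = j, b n * (n : ℝ) ^ (-σ)
        ≤ ∑ n ∈ s with Nat.log 2 n = j, b n * ((2:ℝ) ^ j) ^ (-σ) := Finset.sum_le_sum h1
      _ = (∑ n ∈ s with Nat.log 2 n = j, b n) * ((2:ℝ) ^ j) ^ (-σ) := by rw [Finset.sum_mul]
      _ ≤ (C * ((2 ^ (j + 1) : ℕ) : ℝ) ^ κ) * ((2:ℝ) ^ j) ^ (-σ) := by
          gcongr
          exact h5.trans h6
      _ = C * 2 ^ κ * r ^ j := by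
          have e1 : (((2 ^ (j + 1) : ℕ) : ℝ)) ^ κ = (2:ℝ) ^ κ * ((2:ℝ) ^ κ) ^ j := by
            push_cast
            rw [pow_succ, Real.mul_rpow (by positivity) (by norm_num), mul_comm,
              ← Real.rpow_natCast, ← Real.rpow_natCast, ← Real.rpow_mul (by norm_num),
              ← Real.rpow_mul (by norm_num), mul_comm κ]
          have e2 : ((2:ℝ) ^ j) ^ (-σ) = ((2:ℝ) ^ (-σ)) ^ j := by
            rw [← Real.rpow_natCast, ← Real.rpow_natCast, ← Real.rpow_mul (by norm_num),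
              ← Real.rpow_mul (by norm_num), mul_comm]
          have e3 : (2:ℝ) ^ κ * (2:ℝ) ^ (-σ) = r := by
            rw [hr, ← Real.rpow_add (by norm_num)]
            congr 1
            rw [hδ]; ring
          rw [e1, e2]
          calc C * ((2:ℝ) ^ κ * ((2:ℝ) ^ κ) ^ j) * ((2:ℝ) ^ (-σ)) ^ j
              = C * 2 ^ κ * (((2:ℝ) ^ κ) * (2:ℝ) ^ (-σ)) ^ j := by rw [mul_pow]; ring
            _ = C * 2 ^ κ * r ^ j := by rw [e3]
  calc ∑ j ∈ range J, ∑ n ∈ s with Nat.log 2 n = j, b n * (n : ℝ) ^ (-σ)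
      ≤ ∑ j ∈ range J, C * 2 ^ κ * r ^ j := Finset.sum_le_sum hblock
    _ = C * 2 ^ κ * ∑ j ∈ range J, r ^ j := by rw [Finset.mul_sum]
    _ ≤ C * 2 ^ κ * (1 - r)⁻¹ := by
        gcongr
        rw [geom_sum_eq hr1.ne]
        rw [← neg_sub, ← neg_sub (1:ℝ) r, neg_div_neg_eq, div_eq_mul_inv]
        have : 1 - r ^ J ≤ 1 := by
          have := pow_nonneg hr0.le J
          linarith
        have h1r : 0 < 1 - r := by linarith
        calc (1 - r ^ J) * (1 - r)⁻¹ ≤ 1 * (1 - r)⁻¹ := by gcongr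
          _ = (1 - r)⁻¹ := one_mul _
    _ ≤ C * 2 ^ κ * (2 / δ) := by
        gcongr
        have h1r : δ / 2 ≤ 1 - r := one_sub_two_rpow_neg_ge hδ0.le hδ1
        rw [inv_le_comm₀ (by linarith) (by positivity)]
        rw [inv_div]
        exact h1r
    _ = 2 ^ (κ + 1) * C / δ := by
        rw [Real.rpow_add (by norm_num), Real.rpow_one]
        ring

/-- **Euler product inequality.**  If every finite partial sum of `∑ b n n^{-σ}` is `≤ B` and `b`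
is multiplicative on the products of subsets of the finite set of primes `P`, then
`∏_{p ∈ P} (1 + b p p^{-σ}) ≤ B`. -/
theorem prod_one_add_le {b : ℕ → ℝ} {σ B : ℝ}
    (hB : ∀ s : Finset ℕ, (∀ n ∈ s, 1 ≤ n) → ∑ n ∈ s, b n * (n : ℝ) ^ (-σ) ≤ B)
    (P : Finset ℕ) (hP : ∀ p ∈ P, p.Prime)
    (hmul : ∀ T ⊆ P, b (∏ p ∈ T, p) = ∏ p ∈ T, b p) :
    ∏ p ∈ P, (1 + b p * (p : ℝ) ^ (-σ)) ≤ B := by
  classical
  rw [Finset.prod_one_add]
  have hterm : ∀ T ∈ P.powerset, ∏ p ∈ T, b p * (p : ℝ) ^ (-σ) =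
      b (∏ p ∈ T, p) * ((∏ p ∈ T, p : ℕ) : ℝ) ^ (-σ) := by
    intro T hT
    rw [mem_powerset] at hT
    rw [Finset.prod_mul_distrib, hmul T hT]
    congr 1
    push_cast
    rw [Real.finsetProd_rpow]
    intro i _
    positivity
  rw [Finset.sum_congr rfl hterm]
  have hinj : Set.InjOn (fun T : Finset ℕ => ∏ p ∈ T, p) (P.powerset : Set (Finset ℕ)) := by
    intro T₁ h₁ T₂ h₂ h
    have h₁' : T₁ ⊆ P := mem_powerset.mp h₁
    have h₂' : T₂ ⊆ P := mem_powerset.mp h₂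
    have e₁ := Nat.primeFactors_prod (s := T₁) fun p hp => hP p (h₁' hp)
    have e₂ := Nat.primeFactors_prod (s := T₂) fun p hp => hP p (h₂' hp)
    simp only at h
    rw [← e₁, ← e₂, h]
  rw [← Finset.sum_image (f := fun n : ℕ => b n * (n : ℝ) ^ (-σ)) hinj]
  refine hB _ fun n hn => ?_
  rw [mem_image] at hn
  obtain ⟨T, hT, rfl⟩ := hn
  exact Nat.one_le_iff_ne_zero.mpr
    (Finset.prod_ne_zero_iff.mpr fun p hp => (hP p (mem_powerset.mp hT hp)).ne_zero)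

lemma sum_inv_sq_le_two (P : Finset ℕ) : ∑ p ∈ P, ((p : ℝ) ^ 2)⁻¹ ≤ 2 := by
  have h := sum_le_hasSum P (fun i _ => by positivity) hasSum_zeta_two
  simp only [one_div] at h
  refine h.trans ?_
  have : Real.pi ^ 2 ≤ 12 := by
    have h1 := Real.pi_lt_d2
    have h2 := Real.pi_pos
    nlinarith
  linarith

/-- `log (1 + y) ≥ y - y²` for `y ≥ 0`. -/
lemma le_log_one_add {y : ℝ} (hy : 0 ≤ y) : y - y ^ 2 ≤ Real.log (1 + y) := by
  have h1 : (0:ℝ) < 1 + y := by linarith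
  have h2 := Real.one_sub_inv_le_log_of_pos h1
  refine le_trans ?_ h2
  rw [← sub_nonneg]
  have : 1 - (1 + y)⁻¹ - (y - y ^ 2) = y ^ 3 / (1 + y) := by
    field_simp
    ring
  rw [this]
  positivity

/-- Prime sums from the Euler product inequality: bounded coefficients. -/
theorem sum_primes_le_of_prod_le {b : ℕ → ℝ} (hb : ∀ n, 0 ≤ b n) {σ B β : ℝ} (hσ : 1 ≤ σ)
    (P : Finset ℕ) (hP : ∀ p ∈ P, p.Prime)
    (hprod : ∏ p ∈ P, (1 + b p * (p : ℝ) ^ (-σ)) ≤ B) (hβ : ∀ p ∈ P, b p ≤ β) :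
    ∑ p ∈ P, b p * (p : ℝ) ^ (-σ) ≤ Real.log B + 2 * β ^ 2 := by
  have hβ0 : ∀ p ∈ P, 0 ≤ β := fun p hp => (hb p).trans (hβ p hp)
  have hypos : ∀ p ∈ P, 0 ≤ b p * (p : ℝ) ^ (-σ) := fun p _ => by
    have := hb p
    positivity
  have hprodpos : 0 < ∏ p ∈ P, (1 + b p * (p : ℝ) ^ (-σ)) :=
    Finset.prod_pos fun p hp => by have := hypos p hp; linarith
  have hlog : Real.log (∏ p ∈ P, (1 + b p * (p : ℝ) ^ (-σ))) ≤ Real.log B :=
    Real.log_le_log hprodpos hprod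
  rw [Real.log_prod (fun p hp => by have := hypos p hp; linarith)] at hlog
  have hterm : ∀ p ∈ P, b p * (p : ℝ) ^ (-σ) - β ^ 2 * ((p : ℝ) ^ 2)⁻¹ ≤
      Real.log (1 + b p * (p : ℝ) ^ (-σ)) := by
    intro p hp
    refine le_trans ?_ (le_log_one_add (hypos p hp))
    have hp1 : (1:ℝ) ≤ p := by exact_mod_cast (hP p hp).one_le
    have h1 : (p : ℝ) ^ (-σ) ≤ (p : ℝ)⁻¹ := by
      rw [← Real.rpow_neg_one]
      exact Real.rpow_le_rpow_of_exponent_le hp1 (by linarith)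
    have h2 : (0:ℝ) ≤ (p : ℝ) ^ (-σ) := by positivity
    have h3 : (b p * (p : ℝ) ^ (-σ)) ^ 2 ≤ β ^ 2 * ((p : ℝ) ^ 2)⁻¹ := by
      rw [mul_pow, ← inv_pow]
      have := hb p
      have := hβ p hp
      gcongr
    linarith
  have hsum := (Finset.sum_le_sum hterm).trans hlog
  rw [Finset.sum_sub_distrib] at hsum
  have h4 : ∑ p ∈ P, β ^ 2 * ((p : ℝ) ^ 2)⁻¹ ≤ 2 * β ^ 2 := by
    rw [← Finset.mul_sum]
    have := sum_inv_sq_le_two P
    have hβ2 : 0 ≤ β ^ 2 := by positivity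
    calc β ^ 2 * ∑ p ∈ P, ((p : ℝ) ^ 2)⁻¹ ≤ β ^ 2 * 2 := by gcongr
      _ = 2 * β ^ 2 := by ring
  linarith

/-- Prime sums from the Euler product inequality: the primes where the coefficient is large
have small `σ`-mass. -/
theorem sum_primes_ge_le_of_prod_le {b : ℕ → ℝ} {σ B c : ℝ} (hσ : 1 ≤ σ) (hc : 0 ≤ c)
    (P : Finset ℕ) (hP : ∀ p ∈ P, p.Prime)
    (hprod : ∏ p ∈ P, (1 + b p * (p : ℝ) ^ (-σ)) ≤ B) (hbc : ∀ p ∈ P, c ≤ b p) :
    c * ∑ p ∈ P, (p : ℝ) ^ (-σ) ≤ Real.log B + 2 * c ^ 2 := by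
  have hprod' : ∏ p ∈ P, (1 + (fun _ : ℕ => c) p * (p : ℝ) ^ (-σ)) ≤ B := by
    refine le_trans ?_ hprod
    refine Finset.prod_le_prod (fun p _ => by positivity) fun p hp => ?_
    have := hbc p hp
    gcongr
  have := sum_primes_le_of_prod_le (b := fun _ => c) (fun _ => hc) hσ P hP hprod'
    (fun _ _ => le_rfl)
  rwa [← Finset.mul_sum] at this

end Fermat.Agent.S48.H648
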