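/-
S48 (Deligne–Serre), piece (P4) "elementary Rankin bound", part 1 (helper648).

Bessel/Parseval on a horocycle: for a holomorphic, `h`-periodic function `f` on the upper half
plane which is bounded at `i∞`, with `q`-expansion coefficients `a_n`,
  `∑_{n ∈ s} ‖a_n‖² e^{-4π n t / h} ≤ h⁻¹ ∫_0^h ‖f (u + i t)‖² du`   for every finite set `s`.
For a cusp form of weight `k` this gives `∑_{n ≤ x} ‖a_n‖² = O(x^k)`.
Mathlib only.
-/
import Mathlib

set_option autoImplicit false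

open Complex UpperHalfPlane Function MeasureTheory Real
open scoped Real Manifold

noncomputable section

namespace Fermat.Agent.S48.H648

local notation "𝕢" => Function.Periodic.qParam

/-- The restriction of `f` to the horocycle of height `t`, as a function of the real part. -/
def horo (f : ℍ → ℂ) (t : ℝ) (u : ℝ) : ℂ := (f ∘ ofComplex) (u + t * Complex.I)

lemma horo_eq (f : ℍ → ℂ) {t : ℝ} (ht : 0 < t) (u : ℝ) :
    horo f t u = f ⟨u + t * Complex.I, by simpa using ht⟩ := by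
  unfold horo
  simp only [Function.comp_apply]
  rw [ofComplex_apply_of_im_pos (by simpa using ht)]

lemma continuous_horo {f : ℍ → ℂ} (hf : Continuous f) {t : ℝ} (ht : 0 < t) :
    Continuous (horo f t) := by
  have : horo f t = fun u : ℝ => f ⟨u + t * Complex.I, by simpa using ht⟩ := by
    ext u; exact horo_eq f ht u
  rw [this]
  refine hf.comp ?_
  refine Continuous.upperHalfPlaneMk ?_ _
  fun_prop

/-- Fourier coefficient of the horocycle function = `a_n e^{-2π n t / h}`. -/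
lemma fourierCoeffOn_horo {f : ℍ → ℂ} {h : ℝ} (hh : 0 < h)
    (hfper : Periodic (f ∘ ofComplex) h) (hfhol : MDifferentiable 𝓘(ℂ) 𝓘(ℂ) f)
    (hfbdd : IsBoundedAtImInfty f) (n : ℕ) {t : ℝ} (ht : 0 < t) :
    fourierCoeffOn (a := 0) (b := h) hh (horo f t) n =
      (qExpansion h f).coeff n * Real.exp (-2 * π * n * t / h) := by
  have hq : (qExpansion h f).coeff n = 1 / (h : ℂ) * ∫ u in (0:ℝ)..h,
      1 / 𝕢 h ((u : ℂ) + t * Complex.I) ^ n * f ⟨u + t * Complex.I, by simpa using ht⟩ :=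
    qExpansion_coeff_eq_intervalIntegral hh hfper hfhol hfbdd n ht
  rw [fourierCoeffOn_eq_integral, hq]
  simp only [fourier_coe_apply, smul_eq_mul, sub_zero]
  have key : ∀ u : ℝ, Complex.exp (2 * π * Complex.I * ((-(n : ℤ) : ℤ) : ℂ) * u / h) * horo f t u =
      (1 / 𝕢 h ((u : ℂ) + t * Complex.I) ^ n * f ⟨u + t * Complex.I, by simpa using ht⟩) *
        (Real.exp (-2 * π * n * t / h) : ℂ) := by
    intro u
    rw [horo_eq f ht u]
    have h1 : 𝕢 h ((u : ℂ) + t * Complex.I) ^ n =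
        Complex.exp (2 * π * Complex.I * n * u / h) * Complex.exp (-2 * π * n * t / h) := by
      rw [Function.Periodic.qParam, ← Complex.exp_nat_mul, ← Complex.exp_add]
      congr 1
      field_simp
      ring_nf
      rw [Complex.I_sq]
      ring
    rw [h1]
    have h2 : Complex.exp (2 * π * Complex.I * n * u / h) ≠ 0 := Complex.exp_ne_zero _
    have h3 : Complex.exp (-2 * π * n * t / h) ≠ 0 := Complex.exp_ne_zero _
    have h4 : Complex.exp (2 * ↑π * Complex.I * ((-(n : ℤ) : ℤ) : ℂ) * ↑u / ↑h) =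
        (Complex.exp (2 * π * Complex.I * n * u / h))⁻¹ := by
      rw [← Complex.exp_neg]
      congr 1
      push_cast
      ring
    rw [h4]
    push_cast
    field_simp
  have h5 : (∫ x in (0:ℝ)..h,
        Complex.exp (2 * π * Complex.I * ((-(n : ℤ) : ℤ) : ℂ) * x / h) * horo f t x) =
      (∫ u in (0:ℝ)..h, 1 / 𝕢 h ((u : ℂ) + t * Complex.I) ^ n *
        f ⟨u + t * Complex.I, by simpa using ht⟩) * (Real.exp (-2 * π * n * t / h) : ℂ) := by
    rw [← intervalIntegral.integral_mul_const]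
    exact intervalIntegral.integral_congr fun u _ => key u
  rw [h5]
  simp only [one_div, Complex.real_smul, Complex.ofReal_inv]
  ring

lemma memLp_horo {f : ℍ → ℂ} (hf : Continuous f) {t : ℝ} (ht : 0 < t) (h : ℝ) :
    MemLp (horo f t) 2 (volume.restrict (Set.Ioc 0 h)) := by
  have hc := continuous_horo hf ht
  obtain ⟨C, hC⟩ := (isCompact_Icc (a := (0:ℝ)) (b := h)).exists_bound_of_continuousOn
    hc.continuousOn
  refine MemLp.of_bound hc.aestronglyMeasurable C ?_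
  rw [ae_restrict_iff' measurableSet_Ioc]
  exact Filter.Eventually.of_forall fun x hx => hC x (Set.Ioc_subset_Icc_self hx)

/-- **Bessel on a horocycle.** -/
theorem sum_sq_coeff_mul_exp_le {f : ℍ → ℂ} {h : ℝ} (hh : 0 < h)
    (hfper : Periodic (f ∘ ofComplex) h) (hfhol : MDifferentiable 𝓘(ℂ) 𝓘(ℂ) f)
    (hfbdd : IsBoundedAtImInfty f) {t : ℝ} (ht : 0 < t) (s : Finset ℕ) :
    ∑ n ∈ s, ‖(qExpansion h f).coeff n‖ ^ 2 * Real.exp (-4 * π * n * t / h) ≤
      h⁻¹ * ∫ u in (0:ℝ)..h, ‖horo f t u‖ ^ 2 := by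
  have hcont : Continuous f := hfhol.continuous
  have hsum := hasSum_sq_fourierCoeffOn (a := 0) (b := h) hh (memLp_horo hcont ht h)
  simp only [sub_zero, smul_eq_mul] at hsum
  have hle := sum_le_hasSum (s.map Nat.castEmbedding) (fun i _ => by positivity) hsum
  refine le_trans (le_of_eq ?_) hle
  rw [Finset.sum_map]
  refine Finset.sum_congr rfl fun n _ => ?_
  simp only [Nat.castEmbedding_apply]
  rw [fourierCoeffOn_horo hh hfper hfhol hfbdd n ht, norm_mul, mul_pow, Complex.norm_real,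
    Real.norm_of_nonneg (Real.exp_pos _).le, ← Real.exp_nat_mul]
  congr 2
  push_cast
  ring

section CuspForm

variable {k : ℤ} {Γ : Subgroup (GL (Fin 2) ℝ)} [Γ.IsArithmetic]
  {F : Type*} [FunLike F ℍ ℂ] [CuspFormClass F Γ k]

/-- For a cusp form of weight `k`: `∑_{n ∈ s} ‖a_n‖² e^{-4π n t / h} ≤ C t^{-k}`, uniformly in
the finite set `s` and in `t > 0`. -/
theorem exists_sum_sq_coeff_mul_exp_le (f : F) {h : ℝ} (hh : 0 < h)
    (hΓ : h ∈ Γ.strictPeriods) :
    ∃ C : ℝ, 0 ≤ C ∧ ∀ t : ℝ, 0 < t → ∀ s : Finset ℕ,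
      ∑ n ∈ s, ‖(qExpansion h f).coeff n‖ ^ 2 * Real.exp (-4 * π * n * t / h) ≤
        C / t ^ (k : ℝ) := by
  obtain ⟨C₀, hC₀⟩ := CuspFormClass.exists_bound (Γ := Γ) (k := k) f
  have hC₀' : 0 ≤ C₀ := by
    have := hC₀ UpperHalfPlane.I
    have h1 : (0:ℝ) < UpperHalfPlane.I.im ^ ((k:ℝ) / 2) := by positivity
    have h2 : 0 ≤ C₀ / UpperHalfPlane.I.im ^ ((k:ℝ) / 2) := le_trans (norm_nonneg _) this
    rcases (div_nonneg_iff.mp h2) with h3 | h3
    · exact h3.1
    · exact absurd h3.2 (not_le.mpr h1)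
  refine ⟨C₀ ^ 2, by positivity, fun t ht s => ?_⟩
  have : Fact (IsCusp OnePoint.infty Γ) := ⟨Γ.isCusp_of_mem_strictPeriods hh hΓ⟩
  have hB := sum_sq_coeff_mul_exp_le (f := (f : ℍ → ℂ)) hh
    (SlashInvariantFormClass.periodic_comp_ofComplex f hΓ) (ModularFormClass.holo f)
    (ModularFormClass.bdd_at_infty f) ht s
  refine hB.trans ?_
  have hpt : ∀ u : ℝ, ‖horo (f : ℍ → ℂ) t u‖ ^ 2 ≤ C₀ ^ 2 / t ^ (k : ℝ) := by
    intro u
    rw [horo_eq _ ht u]
    have h1 := hC₀ ⟨u + t * Complex.I, by simpa using ht⟩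
    have him : (⟨u + t * Complex.I, by simpa using ht⟩ : ℍ).im = t := by
      simp [UpperHalfPlane.im]
    rw [him] at h1
    have h2 : (t ^ ((k:ℝ) / 2)) ^ 2 = t ^ (k : ℝ) := by
      rw [← Real.rpow_natCast, ← Real.rpow_mul ht.le]
      congr 1
      push_cast
      ring
    calc ‖(f : ℍ → ℂ) ⟨u + t * Complex.I, by simpa using ht⟩‖ ^ 2
        ≤ (C₀ / t ^ ((k:ℝ) / 2)) ^ 2 := by gcongr
      _ = C₀ ^ 2 / t ^ (k : ℝ) := by rw [div_pow, h2]
  have hint : (∫ u in (0:ℝ)..h, ‖horo (f : ℍ → ℂ) t u‖ ^ 2) ≤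
      ∫ _u in (0:ℝ)..h, C₀ ^ 2 / t ^ (k : ℝ) := by
    refine intervalIntegral.integral_mono_on hh.le ?_ ?_ fun u _ => hpt u
    · exact ((continuous_horo (ModularFormClass.holo f).continuous ht).norm.pow 2).intervalIntegrable _ _
    · exact continuous_const.intervalIntegrable _ _
  rw [intervalIntegral.integral_const, sub_zero, smul_eq_mul] at hint
  calc h⁻¹ * ∫ u in (0:ℝ)..h, ‖horo (f : ℍ → ℂ) t u‖ ^ 2
      ≤ h⁻¹ * (h * (C₀ ^ 2 / t ^ (k : ℝ))) := by gcongr
    _ = C₀ ^ 2 / t ^ (k : ℝ) := by field_simp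

/-- **Mean-square bound** for the coefficients of a cusp form of weight `k`:
`∑_{n ≤ x} ‖a_n‖² ≤ C x^k` for all `x ≥ 1`. -/
theorem exists_sum_sq_coeff_le (f : F) {h : ℝ} (hh : 0 < h) (hΓ : h ∈ Γ.strictPeriods) :
    ∃ C : ℝ, 0 ≤ C ∧ ∀ x : ℕ, 1 ≤ x →
      ∑ n ∈ Finset.range (x + 1), ‖(qExpansion h f).coeff n‖ ^ 2 ≤ C * (x : ℝ) ^ (k : ℝ) := by
  obtain ⟨C, hC, hbd⟩ := exists_sum_sq_coeff_mul_exp_le (Γ := Γ) (k := k) f hh hΓ
  refine ⟨C * Real.exp (4 * π / h), by positivity, fun x hx => ?_⟩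
  have hx0 : (0:ℝ) < x := by exact_mod_cast hx
  have h1 := hbd (1 / x) (by positivity) (Finset.range (x + 1))
  have h2 : ∀ n ∈ Finset.range (x + 1), ‖(qExpansion h f).coeff n‖ ^ 2 * Real.exp (-(4 * π / h)) ≤
      ‖(qExpansion h f).coeff n‖ ^ 2 * Real.exp (-4 * π * n * (1 / x) / h) := by
    intro n hn
    have hn' : (n : ℝ) ≤ x := by exact_mod_cast Nat.lt_succ_iff.mp (Finset.mem_range.mp hn)
    gcongr
    have h3 : (n : ℝ) * (1 / x) ≤ 1 := by
      rw [mul_one_div]; exact (div_le_one hx0).mpr hn'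
    have h4 : 4 * π * (n * (1 / (x:ℝ))) / h ≤ 4 * π / h := by
      apply div_le_div_of_nonneg_right _ hh.le
      nlinarith [Real.pi_pos]
    have h5 : -4 * π * n * (1 / (x:ℝ)) / h = -(4 * π * (n * (1 / (x:ℝ))) / h) := by ring
    rw [h5]
    linarith
  have h6 := (Finset.sum_le_sum h2).trans h1
  rw [← Finset.sum_mul] at h6
  have h7 : (1 / (x:ℝ)) ^ (k : ℝ) = ((x:ℝ) ^ (k : ℝ))⁻¹ := by
    rw [one_div, Real.inv_rpow hx0.le]
  rw [h7, div_inv_eq_mul] at h6
  have h8 : 0 < Real.exp (-(4 * π / h)) := Real.exp_pos _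
  calc ∑ n ∈ Finset.range (x + 1), ‖(qExpansion h f).coeff n‖ ^ 2
      = (∑ n ∈ Finset.range (x + 1), ‖(qExpansion h f).coeff n‖ ^ 2) *
          Real.exp (-(4 * π / h)) * Real.exp (4 * π / h) := by
        rw [mul_assoc, ← Real.exp_add]; simp
    _ ≤ C * (x:ℝ) ^ (k : ℝ) * Real.exp (4 * π / h) := by gcongr
    _ = C * Real.exp (4 * π / h) * (x : ℝ) ^ (k : ℝ) := by ring

end CuspForm

end Fermat.Agent.S48.H648
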