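import Fermat.Agent.S48.H648.AvRaise
import Fermat.Agent.S48.F1.Defs

/-!
# S48 / Tower A1 (helper648): avatars for `F1 M`, `F1p M p` and the branch fields of
`GoodModel` for their base changes

INPUT (I-GEN, helper76): for every `a ≠ 0` an element of `H828.iactRing ι M` whose `X`-expansion
is `P_a(X^M)`, i.e. `qExpand E M (F1.divGenC E M a)` — hypothesis `HasDivAvatars ι M`.

OUTPUT
* `F1_le_avatarIF`  : every element of `F1 M` has an avatar of level `M`;
* `F1p_le_avatarIF` : every element of `F1p M p = F1 M ⊔ V_p (F1 M)` has an avatar of level `M * p`;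
* `unramified_j_F1`, `unramified_j_F1p`, `unramified_t2_F1p`, `unramified_t3_F1p` : the field
  `unramified` of `S18.Alg.GoodModel` for `Ω = laurentBaseChange E (F1 M)` resp.
  `laurentBaseChange E (F1p M p)`, `Lc = (algebraMap E Ω).fieldRange`, coordinates `j`, `t₂`, `t₃`.
-/

set_option autoImplicit false
set_option linter.unusedSectionVars false
set_option linter.style.haveILetI false

noncomputable section

open ModularCurve HahnSeries UpperHalfPlane
open scoped MatrixGroups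

namespace Fermat.Agent.S48.H648

open Fermat.Agent.S48.H828 Fermat.Agent.S24 Fermat.Agent.S48.F1

variable {E : Type*} [Field E] [CharZero E] (ι : E →+* ℂ)

/-- The rational `q`-series with an avatar of level `K` over `E`, as an intermediate field. -/
def avatarIF (K : ℕ) [NeZero K] : IntermediateField ℚ (LaurentSeries ℚ) :=
  { (avatarField ι K).comap (coeffEmb E) with
    algebraMap_mem' := fun c => by
      show coeffEmb E (algebraMap ℚ (LaurentSeries ℚ) c) ∈ avatarField ι K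
      have : coeffEmb E (algebraMap ℚ (LaurentSeries ℚ) c)
          = HahnSeries.C (algebraMap ℚ E c) := by
        rw [algebraMap_apply_eq_single, coeffEmb, coeffMap_single]
        rfl
      rw [this]
      exact C_mem_avatarField _ }

variable {ι}

theorem mem_avatarIF {K : ℕ} [NeZero K] {x : LaurentSeries ℚ} :
    x ∈ avatarIF ι K ↔ coeffEmb E x ∈ avatarField ι K := Iff.rfl

/-- I-GEN: the division values `P_a` have avatars in `iactRing ι M`. -/
def HasDivAvatars (ι : E →+* ℂ) (M : ℕ) [NeZero M] : Prop :=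
  ∀ a : ZMod M, a ≠ 0 → ∃ g : iactRing ι M, iactExp ι M g = qExpand E M (divGenC E M a)

theorem divGen_mem_avatarIF {M : ℕ} [NeZero M] (hP : HasDivAvatars ι M) {a : ZMod M}
    (ha : a ≠ 0) : divGen M a ∈ avatarIF ι M := by
  obtain ⟨g, hg⟩ := hP a ha
  rw [mem_avatarIF]
  have e : coeffEmb E (divGen M a) = divGenC E M a := coeffMap_divGenC _ M a
  rw [e]
  exact mem_avatarField_of_ring g hg

theorem jqd_mem_avatarIF {M : ℕ} [NeZero M] (ζ : Eˣ)
    (hζ : Units.map (ι : E →* ℂ) ζ = infRoot 1 M) {d : ℕ} [NeZero d] (hd : d ∣ M) :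
    qExpand ℚ d jq ∈ avatarIF ι M := by
  rw [mem_avatarIF]
  refine mem_avatarField.2 ⟨iactFJd ζ hζ d hd, ?_⟩
  rw [iactFieldExp_Jd, coeffEmb, coeffMap_qExpand]

/-- Every element of `F1 M` has an avatar of level `M`. -/
theorem F1_le_avatarIF {M : ℕ} [NeZero M] (ζ : Eˣ)
    (hζ : Units.map (ι : E →* ℂ) ζ = infRoot 1 M) (hP : HasDivAvatars ι M) :
    F1 M ≤ avatarIF ι M := by
  rw [F1, IntermediateField.adjoin_le_iff]
  rintro x (⟨d, hd0, hd, rfl⟩ | ⟨a, ha, rfl⟩)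
  · exact jqd_mem_avatarIF ζ hζ hd
  · exact divGen_mem_avatarIF hP ha

/-- `avatarIF` grows with the level. -/
theorem avatarIF_mono {M K k₀ : ℕ} [NeZero M] [NeZero K] (hk₀ : 0 < k₀) (hK : K = M * k₀)
    (ζ : Eˣ) (hζ : Units.map (ι : E →* ℂ) ζ = infRoot 1 K) : avatarIF ι M ≤ avatarIF ι K :=
  fun _ hx => avatarField_mono hk₀ hK ζ hζ hx

/-- `V_p` maps `avatarIF ι M` into `avatarIF ι (M * p)`. -/
theorem map_qExpand_avatarIF_le {M p : ℕ} [NeZero M] [NeZero p] [NeZero (M * p)] (ζ : Eˣ)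
    (hζ : Units.map (ι : E →* ℂ) ζ = infRoot 1 (M * p)) :
    (avatarIF ι M).map (qExpandₐ p) ≤ avatarIF ι (M * p) := by
  have hp : 0 < p := Nat.pos_of_ne_zero (NeZero.ne p)
  rintro _ ⟨x, hx, rfl⟩
  rw [mem_avatarIF]
  have h := avatarField_levelRaise (d := p) (k₀ := 1) hp one_pos (by ring) ζ hζ
    (mem_avatarIF.1 hx)
  have e : coeffEmb E (qExpand ℚ p x) = qExpand E p (coeffEmb E x) := by
    rw [coeffEmb, coeffMap_qExpand]
  show coeffEmb E (qExpand ℚ p x) ∈ avatarField ι (M * p)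
  rw [e]
  exact h

/-- The `M`-th root of unity `ζ^p` from an `M p`-th root of unity. -/
theorem infRoot_pow_of_mul {M p : ℕ} [NeZero M] [NeZero p] (ζ : Eˣ)
    (hζ : Units.map (ι : E →* ℂ) ζ = infRoot 1 (M * p)) :
    Units.map (ι : E →* ℂ) (ζ ^ p) = infRoot 1 M := by
  have hM : 0 < M := Nat.pos_of_ne_zero (NeZero.ne M)
  have hp : 0 < p := Nat.pos_of_ne_zero (NeZero.ne p)
  haveI : NeZero (M * p) := ⟨(Nat.mul_pos hM hp).ne'⟩
  rw [map_pow, hζ, ← zpow_natCast, iact_infRoot_one_zpow]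
  have := iact_infRoot_mul (M := M * p) 1 hM hp rfl
  rwa [one_mul] at this

/-- Every element of `F1p M p` has an avatar of level `M * p`. -/
theorem F1p_le_avatarIF {M p : ℕ} [NeZero M] [NeZero p] [NeZero (M * p)] (ζ : Eˣ)
    (hζ : Units.map (ι : E →* ℂ) ζ = infRoot 1 (M * p)) (hP : HasDivAvatars ι M) :
    F1p M p ≤ avatarIF ι (M * p) := by
  have hp : 0 < p := Nat.pos_of_ne_zero (NeZero.ne p)
  have h1 : F1 M ≤ avatarIF ι M := F1_le_avatarIF (ζ ^ p) (infRoot_pow_of_mul ζ hζ) hP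
  rw [F1p]
  refine sup_le (h1.trans (avatarIF_mono hp rfl ζ hζ)) ?_
  exact (IntermediateField.map_mono _ h1).trans (map_qExpand_avatarIF_le ζ hζ)

/-! ### The branch fields -/

section Branch

variable {M : ℕ} [NeZero M] (ζ : Eˣ) (hP : HasDivAvatars ι M)

include hP in
/-- **`GoodModel.unramified` for `Ω = E·F1(M)`, coordinate `j`, `S = {0, 1728}`.** -/
theorem unramified_j_F1 (hζ : Units.map (ι : E →* ℂ) ζ = infRoot 1 M)
    [CharZero ↥(laurentBaseChange E (F1 M))]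
    (jΩ : ↥(laurentBaseChange E (F1 M))) (hj : (jΩ : LaurentSeries E) = coeffEmb E jq)
    (O : ValuationSubring ↥(laurentBaseChange E (F1 M)))
    (hO : ∀ a ∈ (algebraMap E ↥(laurentBaseChange E (F1 M))).fieldRange, a ∈ O)
    (c : ↥(laurentBaseChange E (F1 M)))
    (hc : c ∈ (algebraMap E ↥(laurentBaseChange E (F1 M))).fieldRange)
    (hc0 : c ≠ 0) (hc1 : c ≠ 1728) (h1 : jΩ - c ∈ O) (h2 : (jΩ - c)⁻¹ ∉ O)
    (t : ↥(laurentBaseChange E (F1 M))) (ht : t ∈ O) (ht' : t⁻¹ ∉ O) :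
    t * (jΩ - c)⁻¹ ∈ O :=
  unramified_j_laurentBaseChange (ι := ι) (M := M) (F1 M)
    (fun _ hx => F1_le_avatarIF ζ hζ hP hx) jΩ hj O hO c hc hc0 hc1 h1 h2 t ht ht'

variable {p : ℕ} [NeZero p] [NeZero (M * p)]
  (hζ : Units.map (ι : E →* ℂ) ζ = infRoot 1 (M * p))
  [CharZero ↥(laurentBaseChange E (F1p M p))]

include ζ hP hζ

/-- **`GoodModel.unramified` for `Ω = E·F1(M; p)`, coordinate `j`.** -/
theorem unramified_j_F1p
    (jΩ : ↥(laurentBaseChange E (F1p M p))) (hj : (jΩ : LaurentSeries E) = coeffEmb E jq)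
    (O : ValuationSubring ↥(laurentBaseChange E (F1p M p)))
    (hO : ∀ a ∈ (algebraMap E ↥(laurentBaseChange E (F1p M p))).fieldRange, a ∈ O)
    (c : ↥(laurentBaseChange E (F1p M p)))
    (hc : c ∈ (algebraMap E ↥(laurentBaseChange E (F1p M p))).fieldRange)
    (hc0 : c ≠ 0) (hc1 : c ≠ 1728) (h1 : jΩ - c ∈ O) (h2 : (jΩ - c)⁻¹ ∉ O)
    (t : ↥(laurentBaseChange E (F1p M p))) (ht : t ∈ O) (ht' : t⁻¹ ∉ O) :
    t * (jΩ - c)⁻¹ ∈ O :=
  unramified_j_laurentBaseChange (ι := ι) (M := M * p) (F1p M p)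
    (fun _ hx => F1p_le_avatarIF ζ hζ hP hx) jΩ hj O hO c hc hc0 hc1 h1 h2 t ht ht'

/-- **`GoodModel.unramified` for `Ω = E·F1(M; p)`, coordinate `t₂`, `S = {0, -64}`.** -/
theorem unramified_t2_F1p
    (jΩ x : ↥(laurentBaseChange E (F1p M p))) (hj : (jΩ : LaurentSeries E) = coeffEmb E jq)
    (hjx : jΩ * x ^ 2 = (x + 256) ^ 3)
    (O : ValuationSubring ↥(laurentBaseChange E (F1p M p)))
    (hO : ∀ a ∈ (algebraMap E ↥(laurentBaseChange E (F1p M p))).fieldRange, a ∈ O)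
    (c : ↥(laurentBaseChange E (F1p M p)))
    (hc : c ∈ (algebraMap E ↥(laurentBaseChange E (F1p M p))).fieldRange)
    (hc0 : c ≠ 0) (hc64 : c ≠ -64) (h1 : x - c ∈ O) (h2 : (x - c)⁻¹ ∉ O)
    (t : ↥(laurentBaseChange E (F1p M p))) (ht : t ∈ O) (ht' : t⁻¹ ∉ O) :
    t * (x - c)⁻¹ ∈ O :=
  unramified_t2_laurentBaseChange (ι := ι) (M := M * p) (F1p M p)
    (fun _ hx => F1p_le_avatarIF ζ hζ hP hx) jΩ x hj hjx O hO c hc hc0 hc64 h1 h2 t ht ht'

/-- **`GoodModel.unramified` for `Ω = E·F1(M; p)`, coordinate `t₃`, `S = {0, -27}`.** -/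
theorem unramified_t3_F1p
    (jΩ x : ↥(laurentBaseChange E (F1p M p))) (hj : (jΩ : LaurentSeries E) = coeffEmb E jq)
    (hjx : jΩ * x ^ 3 = (x + 27) * (x + 243) ^ 3)
    (O : ValuationSubring ↥(laurentBaseChange E (F1p M p)))
    (hO : ∀ a ∈ (algebraMap E ↥(laurentBaseChange E (F1p M p))).fieldRange, a ∈ O)
    (c : ↥(laurentBaseChange E (F1p M p)))
    (hc : c ∈ (algebraMap E ↥(laurentBaseChange E (F1p M p))).fieldRange)
    (hc0 : c ≠ 0) (hc27 : c ≠ -27) (h1 : x - c ∈ O) (h2 : (x - c)⁻¹ ∉ O)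
    (t : ↥(laurentBaseChange E (F1p M p))) (ht : t ∈ O) (ht' : t⁻¹ ∉ O) :
    t * (x - c)⁻¹ ∈ O :=
  unramified_t3_laurentBaseChange (ι := ι) (M := M * p) (F1p M p)
    (fun _ hx => F1p_le_avatarIF ζ hζ hP hx) jΩ x hj hjx O hO c hc hc0 hc27 h1 h2 t ht ht'

end Branch

end Fermat.Agent.S48.H648
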