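import Fermat.Agent.S48.H648.BrEmb
import Fermat.Agent.S48.H828.IActJd

/-!
# S48 / Tower A1 (helper648): level raising of avatars (AV-RAISE)

`K = M * d * k₀`, `ζ ∈ Eˣ` with `ι ζ = exp(2πi/K)`.

* `raiseFun d f = (τ ↦ f(dτ))`; `raiseFun_mem_iactRing` : `f ∈ H828.iactRing ι M` implies
  `raiseFun d f ∈ iactRing ι K` (holomorphic, `Γ(K)`-invariant, all `SL(2,ℤ)`-translates have
  `E`-rational expansions in `X_K = exp(2πiτ/K)`: Hermite normal form + `InfExp.comp_infAff`);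
* `raiseRing : iactRing ι M →+* iactRing ι K`, `iactExp_raiseRing` :
  `iactExp ι K (raise f) = qExpand E (d * d * k₀) (iactExp ι M f)`;
* `raiseField : IActField ι M →+* IActField ι K`, `iactFieldExp_raiseField`;
* `avatarField_levelRaise` : `F ∈ avatarField ι M → qExpand E d F ∈ avatarField ι K`
  (`d = 1`: change of level `M ∣ K`; `k₀ = 1`: the operator `V_d : q ↦ q^d`);
* `coeffEmb_mem_avatarField_sup` : if the generators of `F₀ ⊆ ℚ((q))` have avatars of level `M`,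
  then all elements of `F₀ ⊔ V_p(F₀)` (e.g. `F1p M p = F1 M ⊔ V_p (F1 M)`) have avatars of level
  `M * p`.
-/

set_option autoImplicit false
set_option linter.unusedSectionVars false
set_option linter.style.haveILetI false

noncomputable section

open ModularCurve HahnSeries UpperHalfPlane
open scoped MatrixGroups Manifold

namespace Fermat.Agent.S48.H648

open Fermat.Agent.S48.H828 Fermat.Agent.S24 Fermat.Agent.S24.H997 Fermat.Agent.S24.H624

/-- `τ ↦ f(dτ)`. -/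
def raiseFun (d : ℕ) (f : ℍ → ℂ) : ℍ → ℂ := fun τ => f (infAff d 0 1 τ)

theorem raiseFun_apply (d : ℕ) (f : ℍ → ℂ) (τ : ℍ) : raiseFun d f τ = f (infAff d 0 1 τ) := rfl

theorem raiseFun_add (d : ℕ) (f g : ℍ → ℂ) : raiseFun d (f + g) = raiseFun d f + raiseFun d g :=
  rfl

theorem raiseFun_mul (d : ℕ) (f g : ℍ → ℂ) : raiseFun d (f * g) = raiseFun d f * raiseFun d g :=
  rfl

theorem mdiff_raiseFun {d : ℕ} (hd : 0 < d) {f : ℍ → ℂ} (hf : MDiff f) :
    MDiff (raiseFun d f) := by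
  rw [UpperHalfPlane.mdifferentiable_iff]
  have hj : DifferentiableOn ℂ (f ∘ ofComplex) {z : ℂ | 0 < z.im} :=
    UpperHalfPlane.mdifferentiable_iff.mp hf
  have hmul : DifferentiableOn ℂ (fun z : ℂ => (d : ℂ) * z) {z : ℂ | 0 < z.im} :=
    (differentiable_id.const_mul (d : ℂ)).differentiableOn
  have hmaps : Set.MapsTo (fun z : ℂ => (d : ℂ) * z) {z : ℂ | 0 < z.im} {z : ℂ | 0 < z.im} := by
    intro z hz
    simp only [Set.mem_ofPred_eq] at hz ⊢
    have : ((d : ℂ) * z).im = d * z.im := by simp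
    rw [this]
    have hd' : (0 : ℝ) < d := by exact_mod_cast hd
    positivity
  refine (hj.comp hmul hmaps).congr ?_
  intro z hz
  simp only [Set.mem_ofPred_eq] at hz
  simp only [Function.comp_apply, raiseFun]
  congr 1
  apply UpperHalfPlane.ext
  rw [infAff_coe hd one_pos, ofComplex_apply_of_im_pos hz]
  have hz' : 0 < ((d : ℂ) * z).im := hmaps hz
  rw [ofComplex_apply_of_im_pos hz']
  simp

/-- `Γ(K)`-invariance of `f(dτ)` for `Γ(M)`-invariant `f`, `M d ∣ K`. -/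
theorem raiseFun_compSL_of_mem_Gamma {M d K : ℕ} (hd : 0 < d) (hK : M * d ∣ K) {f : ℍ → ℂ}
    (hf : ∀ γ ∈ CongruenceSubgroup.Gamma M, compSL γ f = f) {γ : SL(2, ℤ)}
    (hγ : γ ∈ CongruenceSubgroup.Gamma K) : compSL γ (raiseFun d f) = raiseFun d f := by
  obtain ⟨h00, h01, h10, h11⟩ := CongruenceSubgroup.Gamma_mem.mp hγ
  have hMK : (M : ℤ) ∣ (K : ℤ) := by exact_mod_cast (Dvd.intro _ rfl : M ∣ M * d).trans hK
  have hMdK : ((M * d : ℕ) : ℤ) ∣ (K : ℤ) := by exact_mod_cast hK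
  have d00 : (K : ℤ) ∣ γ 0 0 - 1 := by
    have : ((γ 0 0 - 1 : ℤ) : ZMod K) = 0 := by push_cast; rw [h00]; ring
    exact (ZMod.intCast_zmod_eq_zero_iff_dvd _ _).mp this
  have d01 : (K : ℤ) ∣ γ 0 1 := (ZMod.intCast_zmod_eq_zero_iff_dvd _ _).mp h01
  have d10 : (K : ℤ) ∣ γ 1 0 := (ZMod.intCast_zmod_eq_zero_iff_dvd _ _).mp h10
  have d11 : (K : ℤ) ∣ γ 1 1 - 1 := by
    have : ((γ 1 1 - 1 : ℤ) : ZMod K) = 0 := by push_cast; rw [h11]; ring
    exact (ZMod.intCast_zmod_eq_zero_iff_dvd _ _).mp this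
  obtain ⟨r, hr⟩ : ((M * d : ℕ) : ℤ) ∣ γ 1 0 := hMdK.trans d10
  have hr' : γ 1 0 = (M : ℤ) * r * d := by rw [hr]; push_cast; ring
  have hdet := inf_sl_det γ
  let γ' : SL(2, ℤ) := ⟨!![γ 0 0, (d : ℤ) * γ 0 1; (M : ℤ) * r, γ 1 1], by
    rw [Matrix.det_fin_two_of]
    rw [hr'] at hdet
    linear_combination hdet⟩
  have e00 : γ' 0 0 = γ 0 0 := rfl
  have e01 : γ' 0 1 = (d : ℤ) * γ 0 1 := rfl
  have e10 : γ' 1 0 = (M : ℤ) * r := rfl
  have e11 : γ' 1 1 = γ 1 1 := rfl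
  have hγ' : γ' ∈ CongruenceSubgroup.Gamma M := by
    rw [CongruenceSubgroup.Gamma_mem, e00, e01, e10, e11]
    refine ⟨?_, ?_, ?_, ?_⟩
    · have : ((γ 0 0 - 1 : ℤ) : ZMod M) = 0 :=
        (ZMod.intCast_zmod_eq_zero_iff_dvd _ _).mpr (hMK.trans d00)
      push_cast at this
      exact sub_eq_zero.mp this
    · rw [ZMod.intCast_zmod_eq_zero_iff_dvd]
      exact Dvd.dvd.mul_left (hMK.trans d01) _
    · rw [ZMod.intCast_zmod_eq_zero_iff_dvd]
      exact Dvd.intro _ rfl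
    · have : ((γ 1 1 - 1 : ℤ) : ZMod M) = 0 :=
        (ZMod.intCast_zmod_eq_zero_iff_dvd _ _).mpr (hMK.trans d11)
      push_cast at this
      exact sub_eq_zero.mp this
  funext τ
  show f (infAff d 0 1 (γ • τ)) = f (infAff d 0 1 τ)
  have k00 : (d : ℤ) * γ 0 0 = γ' 0 0 * (d : ℕ) := by rw [e00]; ring
  have k01 : (d : ℤ) * γ 0 1 = γ' 0 0 * (0 : ℤ) + γ' 0 1 * ((1 : ℕ) : ℤ) := by
    rw [e01, Nat.cast_one, mul_zero, zero_add, mul_one]
  have k10 : γ 1 0 = γ' 1 0 * (d : ℕ) := by rw [e10, hr']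
  have k11 : γ 1 1 = γ' 1 0 * (0 : ℤ) + γ' 1 1 * ((1 : ℕ) : ℤ) := by
    rw [e11, Nat.cast_one, mul_zero, zero_add, mul_one]
  have key := inf_aff_smul_eq (d := d) (a := d) (d' := 1) (b := 0) hd hd one_pos γ γ'
    k00 k01 k10 k11 τ
  rw [key]
  exact congrFun (hf γ' hγ') (infAff d 0 1 τ)

variable {E : Type*} [Field E] [CharZero E] {ι : E →+* ℂ}

/-- All `SL(2,ℤ)`-translates of `f(dτ)` have `E`-rational expansions in `X_K`. -/
theorem raiseFun_rat {M d K k₀ : ℕ} [NeZero M] [NeZero K] (hd : 0 < d) (hk₀ : 0 < k₀)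
    (hK : K = M * d * k₀) (ζ : Eˣ) (hζ : Units.map (ι : E →* ℂ) ζ = infRoot 1 K)
    {f : ℍ → ℂ} (hf : ∀ γ : SL(2, ℤ), IActRat ι M (compSL γ f)) (γ : SL(2, ℤ)) :
    IActRat ι K (compSL γ (raiseFun d f)) := by
  have hM : 0 < M := Nat.pos_of_ne_zero (NeZero.ne M)
  have hKpos : 0 < K := Nat.pos_of_ne_zero (NeZero.ne K)
  obtain ⟨γ', a, d', b, ha, hd', had, h00, h01, h10, h11⟩ := inf_exists_hnf d hd γ
  obtain ⟨φ, hφ⟩ := hf γ'
  -- `e * (d' * M) = a * K` with `e = a * a * k₀`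
  haveI : NeZero (a * a * k₀) := ⟨(Nat.mul_pos (Nat.mul_pos ha ha) hk₀).ne'⟩
  have he : (a * a * k₀) * (d' * M) = a * K := by
    rw [hK, ← had]; ring
  have h := hφ.comp_infAff (e := a * a * k₀) (N := K) b ha hd' hM hKpos he
  -- the root of unity `exp(2πi b/(d' M))` as a power of `ζ`
  have hc : K = (d' * M) * (a * k₀) := by rw [hK, ← had]; ring
  have hroot : Units.map (ι : E →* ℂ) (ζ ^ (b * ((a * k₀ : ℕ) : ℤ))) = infRoot b (d' * M) := by
    rw [map_zpow, hζ, iact_infRoot_one_zpow]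
    exact iact_infRoot_mul b (Nat.mul_pos hd' hM) (Nat.mul_pos ha hk₀) hc
  refine ⟨qExpand E (a * a * k₀) (infTwist (ζ ^ (b * ((a * k₀ : ℕ) : ℤ))) φ), ?_⟩
  rw [coeffMap_qExpand, iact_coeffMap_infTwist, hroot]
  refine h.congr fun τ => ?_
  show compSL γ' f (infAff a b d' τ) = raiseFun d f (γ • τ)
  rw [raiseFun_apply, inf_aff_smul_eq hd ha hd' γ γ' h00 h01 h10 h11 τ]
  rfl

theorem raiseFun_mem_iactRing {M d K k₀ : ℕ} [NeZero M] [NeZero K] (hd : 0 < d) (hk₀ : 0 < k₀)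
    (hK : K = M * d * k₀) (ζ : Eˣ) (hζ : Units.map (ι : E →* ℂ) ζ = infRoot 1 K)
    {f : ℍ → ℂ} (hf : f ∈ iactRing ι M) : raiseFun d f ∈ iactRing ι K := by
  obtain ⟨h0, h1, h2⟩ := hf
  refine ⟨mdiff_raiseFun hd h0, fun γ hγ => ?_, fun γ => raiseFun_rat hd hk₀ hK ζ hζ h2 γ⟩
  exact raiseFun_compSL_of_mem_Gamma hd ⟨k₀, hK⟩ h1 hγ

section Ring

variable {M d K k₀ : ℕ} [NeZero M] [NeZero K] (hd : 0 < d) (hk₀ : 0 < k₀)
  (hK : K = M * d * k₀) (ζ : Eˣ) (hζ : Units.map (ι : E →* ℂ) ζ = infRoot 1 K)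

/-- `f ↦ f(dτ)` as a ring hom `iactRing ι M →+* iactRing ι K`. -/
def raiseRing : iactRing ι M →+* iactRing ι K where
  toFun f := ⟨raiseFun d f.1, raiseFun_mem_iactRing hd hk₀ hK ζ hζ f.2⟩
  map_one' := rfl
  map_mul' _ _ := rfl
  map_zero' := rfl
  map_add' _ _ := rfl

theorem raiseRing_apply (f : iactRing ι M) (τ : ℍ) :
    ((raiseRing hd hk₀ hK ζ hζ f : iactRing ι K) : ℍ → ℂ) τ = (f : ℍ → ℂ) (infAff d 0 1 τ) := rfl

/-- The expansion of `f(dτ)` in `X_K` is `φ(X_K^{d·K/M})`. -/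
theorem iactExp_raiseRing [NeZero (d * d * k₀)] (f : iactRing ι M) :
    iactExp ι K (raiseRing hd hk₀ hK ζ hζ f) = qExpand E (d * d * k₀) (iactExp ι M f) := by
  have hM : 0 < M := Nat.pos_of_ne_zero (NeZero.ne M)
  have hKpos : 0 < K := Nat.pos_of_ne_zero (NeZero.ne K)
  apply iactExp_eq
  have hφ := iactExp_spec (ι := ι) (M := M) f
  have he : (d * d * k₀) * (1 * M) = d * K := by rw [hK]; ring
  have h := hφ.comp_infAff (e := d * d * k₀) (N := K) 0 hd one_pos hM hKpos he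
  rw [infRoot_zero, infTwist_one] at h
  rw [coeffMap_qExpand]
  exact h

theorem raiseRing_injective [NeZero (d * d * k₀)] :
    Function.Injective (raiseRing (ι := ι) hd hk₀ hK ζ hζ) := by
  intro f g h
  apply iactExp_injective (ι := ι) (M := M)
  apply qExpand_injective (R := E) (d * d * k₀)
  rw [← iactExp_raiseRing hd hk₀ hK ζ hζ f, ← iactExp_raiseRing hd hk₀ hK ζ hζ g, h]

/-- `f ↦ f(dτ)` on the fields. -/
def raiseField [NeZero (d * d * k₀)] : IActField ι M →+* IActField ι K :=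
  IsFractionRing.lift (g := (algebraMap (iactRing ι K) (IActField ι K)).comp
    (raiseRing hd hk₀ hK ζ hζ))
    ((IsFractionRing.injective (iactRing ι K) (IActField ι K)).comp
      (raiseRing_injective hd hk₀ hK ζ hζ))

theorem raiseField_algebraMap [NeZero (d * d * k₀)] (f : iactRing ι M) :
    raiseField hd hk₀ hK ζ hζ (algebraMap (iactRing ι M) (IActField ι M) f)
      = algebraMap (iactRing ι K) (IActField ι K) (raiseRing hd hk₀ hK ζ hζ f) :=
  IsFractionRing.lift_algebraMap _ f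

theorem iactFieldExp_raiseField [NeZero (d * d * k₀)] (y : IActField ι M) :
    iactFieldExp ι K (raiseField hd hk₀ hK ζ hζ y)
      = qExpand E (d * d * k₀) (iactFieldExp ι M y) := by
  obtain ⟨a, b, hb, rfl⟩ := IsFractionRing.div_surjective (A := iactRing ι M) y
  rw [map_div₀, map_div₀, map_div₀, map_div₀, raiseField_algebraMap, raiseField_algebraMap,
    iactFieldExp_algebraMap, iactFieldExp_algebraMap, iactFieldExp_algebraMap,
    iactFieldExp_algebraMap, iactExp_raiseRing, iactExp_raiseRing]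

include hd hk₀ hK ζ hζ in
/-- **Level raising of avatars.** -/
theorem avatarField_levelRaise [NeZero d] {F : LaurentSeries E} (hF : F ∈ avatarField ι M) :
    qExpand E d F ∈ avatarField ι K := by
  haveI : NeZero (d * d * k₀) := ⟨(Nat.mul_pos (Nat.mul_pos hd hd) hk₀).ne'⟩
  obtain ⟨y, hy⟩ := mem_avatarField.1 hF
  refine mem_avatarField.2 ⟨raiseField hd hk₀ hK ζ hζ y, ?_⟩
  rw [iactFieldExp_raiseField, hy, qExpand_qExpand, qExpand_qExpand]
  exact qExpand_congr (by rw [hK]; ring) F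

end Ring

/-- Change of level `M ∣ K` (no substitution). -/
theorem avatarField_mono {M K k₀ : ℕ} [NeZero M] [NeZero K] (hk₀ : 0 < k₀) (hK : K = M * k₀)
    (ζ : Eˣ) (hζ : Units.map (ι : E →* ℂ) ζ = infRoot 1 K) {F : LaurentSeries E}
    (hF : F ∈ avatarField ι M) : F ∈ avatarField ι K := by
  have h := avatarField_levelRaise (d := 1) one_pos hk₀ (by rw [hK]; ring) ζ hζ hF
  rwa [qExpand_one_apply] at h

/-- If the elements of `F₀` have avatars of level `M`, then the elements of the compositum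
`F₀ ⊔ V_p(F₀)` have avatars of level `M * p`. -/
theorem coeffEmb_mem_avatarField_sup {M p : ℕ} [NeZero M] [NeZero p] [NeZero (M * p)]
    (ζ : Eˣ) (hζ : Units.map (ι : E →* ℂ) ζ = infRoot 1 (M * p))
    (F₀ : IntermediateField ℚ (LaurentSeries ℚ))
    (hF₀ : ∀ x ∈ F₀, coeffEmb E x ∈ avatarField ι M)
    (S : Set (LaurentSeries ℚ))
    (hS : S = (F₀ : Set (LaurentSeries ℚ)) ∪ (⇑(qExpand ℚ p) '' (F₀ : Set (LaurentSeries ℚ)))) :
    ∀ x ∈ IntermediateField.adjoin ℚ S, coeffEmb E x ∈ avatarField ι (M * p) := by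
  have hp : 0 < p := Nat.pos_of_ne_zero (NeZero.ne p)
  apply coeffEmb_mem_avatarField_of_adjoin
  intro s hs
  rw [hS] at hs
  rcases hs with hs | ⟨x, hx, rfl⟩
  · exact avatarField_mono hp rfl ζ hζ (hF₀ s hs)
  · have h := avatarField_levelRaise (d := p) (k₀ := 1) hp one_pos (by ring) ζ hζ (hF₀ x hx)
    have e : coeffEmb E (qExpand ℚ p x) = qExpand E p (coeffEmb E x) := by
      rw [coeffEmb, coeffMap_qExpand]
    rw [e]
    exact h

end Fermat.Agent.S48.H648
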