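import Mathlib
import Fermat.Agent.Lib.ValConj.Conj

/-!
# S48 / Tower A1 / A1-BR (helper648), part 1: abstract algebra

Setting: a field `L`, constants `φ : E →+* L`, a coordinate `j : L`, a point `c : E`.
A valuation subring `O` of `L` is *centred at `j = c`* (`CentredAt φ j c O`) if it contains the
constants and `j - φ c` is a non-unit of `O`.

* `CentredAt.valuation_eval₂` : for `P ≠ 0`, `v (P(j)) = v (j - c) ^ (rootMultiplicity c P)`.
* `CentredAt.mem_iff` : membership of a rational function `P(j)/Q(j)` in `O` only depends on the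
  root multiplicities of `P`, `Q` at `c`; hence (`CentredAt.mem_iff_mem`) all valuation subrings
  centred at `j = c` have the same trace on `E(j)`.
* `OrdLe y k O` : `ord_O y ≤ k · ord_O t` for every non-unit `t` of `O`, in the division-free form
  `t ^ k * y⁻¹ ∈ O` (`k = 1`: `y` generates the maximal ideal = the conclusion of
  `S18.Alg.GoodModel.unramified`).
* `ordLe_of_conj` : if a finite group `G` acts on `L` with fixed field inside `E(j)`, then `OrdLe`
  for ONE valuation subring centred at `j = c` implies `OrdLe` for ALL of them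
  (they are conjugate: `Lib.ValConj`).
* `ordLe_comap` : descent of `OrdLe` along a field embedding `Ω →+* L` (for subfields such as the
  `Γ₁(M)`-field inside the full-level field).
-/

set_option autoImplicit false

open Polynomial
open scoped Pointwise

namespace Fermat.Agent.S48.H648

variable {L E : Type*} [Field L] [Field E]

/-- `O` contains the constants and `j - φ c` is a non-unit of `O`. -/
structure CentredAt (φ : E →+* L) (j : L) (c : E) (O : ValuationSubring L) : Prop where
  const_mem : ∀ a : E, φ a ∈ O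
  sub_mem : j - φ c ∈ O
  inv_notMem : (j - φ c)⁻¹ ∉ O

/-- `ord_O y ≤ k · ord_O t` for every non-unit `t` of `O`. -/
def OrdLe (y : L) (k : ℕ) (O : ValuationSubring L) : Prop :=
  ∀ t ∈ O, t⁻¹ ∉ O → t ^ k * y⁻¹ ∈ O

namespace CentredAt

variable {φ : E →+* L} {j : L} {c : E} {O : ValuationSubring L}

theorem j_mem (h : CentredAt φ j c O) : j ∈ O := by
  have := add_mem h.sub_mem (h.const_mem c)
  rwa [sub_add_cancel] at this

theorem eval₂_mem (h : CentredAt φ j c O) (P : E[X]) : P.eval₂ φ j ∈ O := by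
  rw [Polynomial.eval₂_eq_sum_range]
  exact sum_mem fun i _ => mul_mem (h.const_mem _) (pow_mem h.j_mem i)

theorem sub_ne_zero (h : CentredAt φ j c O) : j - φ c ≠ 0 := by
  intro h0
  apply h.inv_notMem
  rw [h0, inv_zero]
  exact O.zero_mem

theorem valuation_sub_lt_one (h : CentredAt φ j c O) : O.valuation (j - φ c) < 1 := by
  have h1 : O.valuation (j - φ c) ≤ 1 := (O.valuation_le_one_iff _).2 h.sub_mem
  rcases h1.lt_or_eq with h2 | h2
  · exact h2
  · exfalso
    apply h.inv_notMem
    rw [← O.valuation_le_one_iff, map_inv₀, h2, inv_one]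

theorem valuation_sub_pos (h : CentredAt φ j c O) : 0 < O.valuation (j - φ c) :=
  zero_lt_iff.2 ((Valuation.ne_zero_iff _).2 h.sub_ne_zero)

theorem valuation_const (h : CentredAt φ j c O) {a : E} (ha : a ≠ 0) :
    O.valuation (φ a) = 1 := by
  have h1 : O.valuation (φ a) ≤ 1 := (O.valuation_le_one_iff _).2 (h.const_mem a)
  have h2 : O.valuation (φ a⁻¹) ≤ 1 := (O.valuation_le_one_iff _).2 (h.const_mem a⁻¹)
  rw [map_inv₀, map_inv₀] at h2
  have h0 : φ a ≠ 0 := (map_ne_zero φ).2 ha
  have hpos : 0 < O.valuation (φ a) := zero_lt_iff.2 ((Valuation.ne_zero_iff _).2 h0)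
  exact le_antisymm h1 ((inv_le_one₀ hpos).1 h2)

/-- A polynomial in `j` not vanishing at `c` is a unit of `O`. -/
theorem valuation_eval₂_eq_one (h : CentredAt φ j c O) {P : E[X]} (hP : P.eval c ≠ 0) :
    O.valuation (P.eval₂ φ j) = 1 := by
  obtain ⟨R, hR⟩ := X_sub_C_dvd_sub_C_eval (a := c) (p := P)
  have e : P = C (P.eval c) + (X - C c) * R := by rw [← hR]; ring
  have e2 : P.eval₂ φ j = φ (P.eval c) + (j - φ c) * R.eval₂ φ j := by
    conv_lhs => rw [e]
    simp [eval₂_add, eval₂_mul, eval₂_sub]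
  rw [e2]
  have h1 := h.valuation_const hP
  have h2 : O.valuation ((j - φ c) * R.eval₂ φ j) < 1 := by
    rw [map_mul]
    calc O.valuation (j - φ c) * O.valuation (R.eval₂ φ j)
        ≤ O.valuation (j - φ c) * 1 :=
          mul_le_mul' le_rfl ((O.valuation_le_one_iff _).2 (h.eval₂_mem R))
      _ = O.valuation (j - φ c) := mul_one _
      _ < 1 := h.valuation_sub_lt_one
  rw [Valuation.map_add_eq_of_lt_left _ (by rw [h1]; exact h2), h1]

/-- `v (P(j)) = v (j - c) ^ (multiplicity of c in P)`. -/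
theorem valuation_eval₂ (h : CentredAt φ j c O) {P : E[X]} (hP : P ≠ 0) :
    O.valuation (P.eval₂ φ j) = O.valuation (j - φ c) ^ P.rootMultiplicity c := by
  have e := pow_mul_divByMonic_rootMultiplicity_eq P c
  have hne := eval_divByMonic_pow_rootMultiplicity_ne_zero c hP
  set P₁ := P /ₘ (X - C c) ^ P.rootMultiplicity c with hP₁
  have e2 : P.eval₂ φ j = (j - φ c) ^ P.rootMultiplicity c * P₁.eval₂ φ j := by
    conv_lhs => rw [← e]
    simp [eval₂_mul, eval₂_pow, eval₂_sub]
  rw [e2, map_mul, map_pow, h.valuation_eval₂_eq_one hne, mul_one]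

theorem eval₂_ne_zero (h : CentredAt φ j c O) {P : E[X]} (hP : P ≠ 0) : P.eval₂ φ j ≠ 0 := by
  intro h0
  have := h.valuation_eval₂ hP
  rw [h0, map_zero] at this
  exact (pow_ne_zero _ h.valuation_sub_pos.ne') this.symm

/-- Membership of a rational function of `j` in `O` is decided by root multiplicities at `c`. -/
theorem mem_iff (h : CentredAt φ j c O) {P Q : E[X]} (hQ : Q.eval₂ φ j ≠ 0) :
    P.eval₂ φ j / Q.eval₂ φ j ∈ O ↔ P = 0 ∨ Q.rootMultiplicity c ≤ P.rootMultiplicity c := by
  have hQ0 : Q ≠ 0 := by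
    rintro rfl
    exact hQ (by simp)
  by_cases hP : P = 0
  · subst hP
    simp only [eval₂_zero, zero_div, true_or, iff_true]
    exact O.zero_mem
  simp only [hP, false_or]
  rw [← O.valuation_le_one_iff, map_div₀, h.valuation_eval₂ hP, h.valuation_eval₂ hQ0]
  set g := O.valuation (j - φ c) with hg
  have hg0 : 0 < g := h.valuation_sub_pos
  have hg1 : g < 1 := h.valuation_sub_lt_one
  have hgQ : 0 < g ^ Q.rootMultiplicity c := pow_pos hg0 _
  rw [div_le_one₀ hgQ]
  constructor
  · intro hle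
    by_contra hlt
    have := pow_lt_pow_right_of_lt_one₀ hg0 hg1 (not_le.1 hlt)
    exact absurd hle (not_le.2 this)
  · intro hle
    exact pow_le_pow_of_le_one hg0.le hg1.le hle

/-- Two valuation subrings centred at `j = c` have the same trace on `E(j)`. -/
theorem mem_iff_mem {O' : ValuationSubring L} (h : CentredAt φ j c O) (h' : CentredAt φ j c O')
    {P Q : E[X]} (hQ : Q.eval₂ φ j ≠ 0) :
    P.eval₂ φ j / Q.eval₂ φ j ∈ O ↔ P.eval₂ φ j / Q.eval₂ φ j ∈ O' := by
  rw [h.mem_iff hQ, h'.mem_iff hQ]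

end CentredAt

section Conj

variable {G : Type*} [Group G] [MulSemiringAction G L] [Finite G]

/-- **Transfer by conjugacy.**  If the `G`-fixed elements are rational functions of `j` over `E`,
then all valuation subrings centred at `j = c` are `G`-conjugate; consequently a bound
`ord (j - c) ≤ k · ord t` known for ONE of them holds for ALL of them. -/
theorem ordLe_of_conj (φ : E →+* L) (j : L) (c : E)
    (hfixφ : ∀ (g : G) (a : E), g • φ a = φ a) (hfixj : ∀ g : G, g • j = j)
    (hfix : ∀ x : L, (∀ g : G, g • x = x) →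
      ∃ P Q : E[X], Q.eval₂ φ j ≠ 0 ∧ x = P.eval₂ φ j / Q.eval₂ φ j)
    {O₀ O : ValuationSubring L} (h₀ : CentredAt φ j c O₀) (h : CentredAt φ j c O)
    {k : ℕ} (hk : OrdLe (j - φ c) k O₀) : OrdLe (j - φ c) k O := by
  obtain ⟨g, hg⟩ := Fermat.Agent.Lib.ValConj.exists_smul_eq_of_fixed_mem_iff (G := G) O₀ O
    (fun x hx => by
      obtain ⟨P, Q, hQ, rfl⟩ := hfix x hx
      exact h₀.mem_iff_mem h hQ)
  have hmem : ∀ x : L, x ∈ O ↔ g⁻¹ • x ∈ O₀ := by
    intro x
    rw [← hg]
    exact ValuationSubring.mem_pointwise_smul_iff_inv_smul_mem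
  have hy : g⁻¹ • (j - φ c) = j - φ c := by
    rw [smul_sub, hfixj, hfixφ]
  intro t ht htinv
  rw [hmem, smul_mul', smul_pow', smul_inv'', hy]
  apply hk
  · exact (hmem t).1 ht
  · intro hcon
    apply htinv
    rw [hmem, smul_inv'']
    exact hcon

end Conj

section Descent

variable {Ω : Type*} [Field Ω]

/-- Every valuation subring of `Ω` is the trace of a valuation subring of an extension `L`. -/
theorem exists_valuationSubring_comap (ψ : Ω →+* L) (O' : ValuationSubring Ω) :
    ∃ O : ValuationSubring L, ∀ x : Ω, ψ x ∈ O ↔ x ∈ O' := by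
  obtain ⟨A, hA, hloc⟩ :=
    IsLocalRing.exists_factor_valuationRing (ψ.comp O'.subtype : O' →+* L)
  have hmem : ∀ x : Ω, x ∈ O' → ψ x ∈ A := fun x hx => hA ⟨x, hx⟩
  refine ⟨A, fun x => ⟨fun hx => ?_, hmem x⟩⟩
  by_contra hxO
  have hx0 : x ≠ 0 := fun h0 => hxO (h0 ▸ O'.zero_mem)
  have hinv : x⁻¹ ∈ O' := (O'.mem_or_inv_mem x).resolve_left hxO
  -- the image of `x⁻¹` is a unit of `A`, so `x⁻¹` is a unit of `O'`
  have hu : IsUnit ((ψ.comp O'.subtype).codRestrict A.toSubring hA ⟨x⁻¹, hinv⟩) := by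
    refine ⟨⟨⟨ψ x⁻¹, hmem _ hinv⟩, ⟨ψ x, hx⟩, ?_, ?_⟩, rfl⟩
    · apply Subtype.ext
      show ψ x⁻¹ * ψ x = 1
      rw [← map_mul, inv_mul_cancel₀ hx0, map_one]
    · apply Subtype.ext
      show ψ x * ψ x⁻¹ = 1
      rw [← map_mul, mul_inv_cancel₀ hx0, map_one]
  have hu' : IsUnit (⟨x⁻¹, hinv⟩ : O') := hloc.map_nonunit _ hu
  obtain ⟨⟨a, b, hab, hba⟩, ha⟩ := hu'
  apply hxO
  have hb : (b : Ω) = x := by
    have h1 : (a : Ω) = x⁻¹ := congrArg Subtype.val ha
    have h2 : (a : Ω) * (b : Ω) = 1 := congrArg Subtype.val hab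
    rw [h1] at h2
    field_simp at h2
    exact h2
  rw [← hb]
  exact b.2

/-- **Descent of `OrdLe`** along a field embedding. -/
theorem ordLe_comap (ψ : Ω →+* L) {O' : ValuationSubring Ω} {O : ValuationSubring L}
    (hO : ∀ x : Ω, ψ x ∈ O ↔ x ∈ O') {y : Ω} {k : ℕ} (hk : OrdLe (ψ y) k O) : OrdLe y k O' := by
  intro t ht htinv
  rw [← hO, map_mul, map_pow, map_inv₀]
  apply hk
  · exact (hO t).2 ht
  · rw [← map_inv₀, hO]
    exact htinv

end Descent

end Fermat.Agent.S48.H648
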