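import Fermat.Agent.S48.H648.BrAlg

/-!
# S48 / Tower A1 / A1-BR (helper648), part 4: the coordinates `t₂`, `t₃`

Abstract (Mathlib-only) transfer of branch data from the coordinate `j` to the Hauptmoduln
`x = t₂` (`j x² = (x + 256)³`, used for `ℓ = 3`) and `x = t₃` (`j x³ = (x + 27)(x + 243)³`, used
for `ℓ = 2`) of `S18.Mod.IsCoordinate`.

Setting: a field `Ω` of characteristic `0`, a subfield `Lc` of constants, a valuation subring `O`
containing `Lc`, and `j : Ω` not a constant such that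
* over every `a ∈ Lc`, `a ≠ 0, 1728`, the element `j - a` generates the maximal ideal
  (`OrdLe (j - a) 1 O`),
* `OrdLe j 3 O` over `0` and `OrdLe (j - 1728) 2 O` over `1728`.

Then `x - c` generates the maximal ideal of `O` whenever it is a non-unit and
`c ∉ {0, -64}` (`ordLe_t2`), resp. `c ∉ {0, -27}` (`ordLe_t3`): the field `unramified` of
`S18.Alg.GoodModel` for the coordinates `t₂`, `t₃` with `S = {0, -64}`, `{0, -27}`.
-/

set_option autoImplicit false

namespace Fermat.Agent.S48.H648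

variable {Ω : Type*} [Field Ω]

section Val

variable {O : ValuationSubring Ω}

theorem valuation_lt_one_of_nonunit {t : Ω} (ht : t ∈ O) (ht' : t⁻¹ ∉ O) :
    O.valuation t < 1 := by
  have h1 : O.valuation t ≤ 1 := (O.valuation_le_one_iff _).2 ht
  rcases h1.lt_or_eq with h | h
  · exact h
  · exfalso
    apply ht'
    rw [← O.valuation_le_one_iff, map_inv₀, h, inv_one]

theorem nonunit_of_valuation_lt_one {t : Ω} (ht0 : t ≠ 0) (ht : O.valuation t < 1) :
    t ∈ O ∧ t⁻¹ ∉ O := by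
  refine ⟨(O.valuation_le_one_iff _).1 ht.le, fun h => ?_⟩
  have h1 : O.valuation t⁻¹ ≤ 1 := (O.valuation_le_one_iff _).2 h
  rw [map_inv₀] at h1
  have hpos : 0 < O.valuation t := zero_lt_iff.2 ((Valuation.ne_zero_iff _).2 ht0)
  exact absurd ((inv_le_one₀ hpos).1 h1) (not_le.2 ht)

/-- `OrdLe` in terms of the valuation. -/
theorem ordLe_iff {y : Ω} (hy : y ≠ 0) {k : ℕ} (hk : k ≠ 0) :
    OrdLe y k O ↔ ∀ t : Ω, O.valuation t < 1 → O.valuation t ^ k ≤ O.valuation y := by
  have hypos : 0 < O.valuation y := zero_lt_iff.2 ((Valuation.ne_zero_iff _).2 hy)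
  constructor
  · intro h t ht
    by_cases ht0 : t = 0
    · rw [ht0, map_zero, zero_pow hk]
      exact zero_le
    obtain ⟨h1, h2⟩ := nonunit_of_valuation_lt_one ht0 ht
    have := (O.valuation_le_one_iff _).2 (h t h1 h2)
    rw [map_mul, map_pow, map_inv₀] at this
    have h2 := (mul_inv_le_iff₀ hypos).1 this
    rwa [one_mul] at h2
  · intro h t ht ht'
    have := h t (valuation_lt_one_of_nonunit ht ht')
    rw [← O.valuation_le_one_iff, map_mul, map_pow, map_inv₀]
    exact (mul_inv_le_iff₀ hypos).2 (by rwa [one_mul])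

theorem valuation_const_eq_one (Lc : Subfield Ω) (hO : ∀ a ∈ Lc, a ∈ O) {a : Ω} (ha : a ∈ Lc)
    (ha0 : a ≠ 0) : O.valuation a = 1 := by
  have h1 : O.valuation a ≤ 1 := (O.valuation_le_one_iff _).2 (hO a ha)
  have h2 : O.valuation a⁻¹ ≤ 1 := (O.valuation_le_one_iff _).2 (hO _ (Lc.inv_mem ha))
  rw [map_inv₀] at h2
  have hpos : 0 < O.valuation a := zero_lt_iff.2 ((Valuation.ne_zero_iff _).2 ha0)
  exact le_antisymm h1 ((inv_le_one₀ hpos).1 h2)

theorem valuation_add_const_eq_one (Lc : Subfield Ω) (hO : ∀ a ∈ Lc, a ∈ O) {y a : Ω}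
    (hy : O.valuation y < 1) (ha : a ∈ Lc) (ha0 : a ≠ 0) : O.valuation (y + a) = 1 := by
  have h1 := valuation_const_eq_one Lc hO ha ha0
  rw [Valuation.map_add_eq_of_lt_right _ (by rw [h1]; exact hy), h1]

end Val

theorem natCast_mem_subfield (Lc : Subfield Ω) (n : ℕ) : (n : Ω) ∈ Lc := natCast_mem Lc n

variable [CharZero Ω]

/-- **Coordinate `t₂`** (`ℓ = 3`): `j x² = (x + 256)³`, branch values `S = {0, -64}`. -/
theorem ordLe_t2 (Lc : Subfield Ω) (O : ValuationSubring Ω) (hO : ∀ a ∈ Lc, a ∈ O) (j x : Ω)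
    (hjx : j * x ^ 2 = (x + 256) ^ 3) (hjc : ∀ a ∈ Lc, j ≠ a)
    (Hgen : ∀ a ∈ Lc, a ≠ 0 → a ≠ 1728 → j - a ∈ O → (j - a)⁻¹ ∉ O → OrdLe (j - a) 1 O)
    (H0 : j ∈ O → j⁻¹ ∉ O → OrdLe j 3 O)
    (H1728 : j - 1728 ∈ O → (j - 1728)⁻¹ ∉ O → OrdLe (j - 1728) 2 O)
    (c : Ω) (hc : c ∈ Lc) (hc0 : c ≠ 0) (hc64 : c ≠ -64)
    (h1 : x - c ∈ O) (h2 : (x - c)⁻¹ ∉ O) : OrdLe (x - c) 1 O := by
  have hv : O.valuation (x - c) < 1 := valuation_lt_one_of_nonunit h1 h2
  have hxc0 : x - c ≠ 0 := by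
    intro h
    apply h2
    rw [h, inv_zero]
    exact O.zero_mem
  have hvc : O.valuation c = 1 := valuation_const_eq_one Lc hO hc hc0
  have hvx : O.valuation x = 1 := by
    have := valuation_add_const_eq_one Lc hO hv hc hc0
    rwa [sub_add_cancel] at this
  have hx0 : x ≠ 0 := by
    intro h
    rw [h, map_zero] at hvx
    exact zero_ne_one hvx
  rw [ordLe_iff hxc0 one_ne_zero]
  intro t ht
  rw [pow_one]
  -- the value `c' = j(c)`
  set c' : Ω := (c + 256) ^ 3 / c ^ 2 with hc'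
  have hc'mem : c' ∈ Lc :=
    Lc.div_mem (Lc.pow_mem (Lc.add_mem hc (by exact_mod_cast natCast_mem_subfield Lc 256)) 3)
      (Lc.pow_mem hc 2)
  have hc'c : c' * c ^ 2 = (c + 256) ^ 3 := by
    rw [hc']
    field_simp
  set Q : Ω := c ^ 2 * x ^ 2 - 196608 * c * x - 16777216 * (x + c) with hQ
  have hQmem : Q ∈ O := by
    have hxO : x ∈ O := (O.valuation_le_one_iff _).1 hvx.le
    have hcO : c ∈ O := hO c hc
    have hn1 : (196608 : Ω) ∈ O := hO _ (by exact_mod_cast natCast_mem_subfield Lc 196608)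
    have hn2 : (16777216 : Ω) ∈ O := hO _ (by exact_mod_cast natCast_mem_subfield Lc 16777216)
    exact sub_mem (sub_mem (mul_mem (pow_mem hcO 2) (pow_mem hxO 2))
      (mul_mem (mul_mem hn1 hcO) hxO)) (mul_mem hn2 (add_mem hxO hcO))
  have key : (j - c') * (x ^ 2 * c ^ 2) = (x - c) * Q := by
    have e1 : (j - c') * (x ^ 2 * c ^ 2) = (j * x ^ 2) * c ^ 2 - (c' * c ^ 2) * x ^ 2 := by ring
    rw [e1, hjx, hc'c, hQ]
    ring
  have hjc' : j - c' ≠ 0 := sub_ne_zero.2 (hjc c' hc'mem)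
  have hvjc : O.valuation (j - c') = O.valuation (x - c) * O.valuation Q := by
    have := congrArg O.valuation key
    rwa [map_mul, map_mul, map_mul, map_pow, map_pow, hvx, hvc, one_pow, mul_one,
      mul_one] at this
  have hvjc_le : O.valuation (j - c') ≤ O.valuation (x - c) := by
    rw [hvjc]
    exact mul_le_of_le_one_right' ((O.valuation_le_one_iff _).2 hQmem)
  have hvjc_lt : O.valuation (j - c') < 1 := lt_of_le_of_lt hvjc_le hv
  obtain ⟨hj1, hj2⟩ := nonunit_of_valuation_lt_one hjc' hvjc_lt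
  by_cases hc'0 : c' = 0
  · -- `c = -256`, over `j = 0`
    have hc256 : c + 256 = 0 := by
      have : (c + 256) ^ 3 = 0 := by rw [← hc'c, hc'0, zero_mul]
      exact pow_eq_zero_iff (by norm_num) |>.1 this
    have hxc : x + 256 = x - c := by
      have : c = -256 := eq_neg_of_add_eq_zero_left hc256
      rw [this]; ring
    rw [hc'0, sub_zero] at hj1 hj2 hjc'
    have h3 := (ordLe_iff hjc' (by norm_num : (3 : ℕ) ≠ 0)).1 (H0 hj1 hj2) t ht
    have hvj : O.valuation j = O.valuation (x - c) ^ 3 := by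
      have := congrArg O.valuation hjx
      rwa [map_mul, map_pow, map_pow, hvx, one_pow, mul_one, hxc] at this
    rw [hvj] at h3
    exact (pow_le_pow_iff_left₀ zero_le zero_le (by norm_num : (3 : ℕ) ≠ 0)).1 h3
  by_cases hc'1 : c' = 1728
  · -- `c = 512`, over `j = 1728`
    have hfac : (c + 64) * (c - 512) ^ 2 = 0 := by
      have : (c + 256) ^ 3 = 1728 * c ^ 2 := by rw [← hc'c, hc'1]
      linear_combination this
    have hc512 : c = 512 := by
      rcases mul_eq_zero.1 hfac with h | h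
      · exact absurd (eq_neg_of_add_eq_zero_left h) hc64
      · exact sub_eq_zero.1 (pow_eq_zero_iff (by norm_num) |>.1 h)
    rw [hc'1] at hj1 hj2 hjc'
    have h3 := (ordLe_iff hjc' (by norm_num : (2 : ℕ) ≠ 0)).1 (H1728 hj1 hj2) t ht
    have hv64 : O.valuation (x + 64) = 1 := by
      have h576 : (576 : Ω) ∈ Lc := by exact_mod_cast natCast_mem_subfield Lc 576
      have := valuation_add_const_eq_one Lc hO hv h576 (by norm_num)
      have e : x - c + 576 = x + 64 := by rw [hc512]; ring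
      rwa [e] at this
    have hvj : O.valuation (j - 1728) = O.valuation (x - c) ^ 2 := by
      have e : (j - 1728) * x ^ 2 = (x + 64) * (x - c) ^ 2 := by
        have : (j - 1728) * x ^ 2 = j * x ^ 2 - 1728 * x ^ 2 := by ring
        rw [this, hjx, hc512]
        ring
      have := congrArg O.valuation e
      rwa [map_mul, map_mul, map_pow, map_pow, hvx, hv64, one_pow, mul_one, one_mul] at this
    rw [hvj] at h3
    exact (pow_le_pow_iff_left₀ zero_le zero_le (by norm_num : (2 : ℕ) ≠ 0)).1 h3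
  · -- generic value
    have h3 := (ordLe_iff hjc' one_ne_zero).1 (Hgen c' hc'mem hc'0 hc'1 hj1 hj2) t ht
    rw [pow_one] at h3
    exact h3.trans hvjc_le

/-- **Coordinate `t₃`** (`ℓ = 2`): `j x³ = (x + 27)(x + 243)³`, branch values `S = {0, -27}`. -/
theorem ordLe_t3 (Lc : Subfield Ω) (O : ValuationSubring Ω) (hO : ∀ a ∈ Lc, a ∈ O) (j x : Ω)
    (hjx : j * x ^ 3 = (x + 27) * (x + 243) ^ 3) (hjc : ∀ a ∈ Lc, j ≠ a)
    (Hgen : ∀ a ∈ Lc, a ≠ 0 → a ≠ 1728 → j - a ∈ O → (j - a)⁻¹ ∉ O → OrdLe (j - a) 1 O)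
    (H0 : j ∈ O → j⁻¹ ∉ O → OrdLe j 3 O)
    (H1728 : j - 1728 ∈ O → (j - 1728)⁻¹ ∉ O → OrdLe (j - 1728) 2 O)
    (c : Ω) (hc : c ∈ Lc) (hc0 : c ≠ 0) (hc27 : c ≠ -27)
    (h1 : x - c ∈ O) (h2 : (x - c)⁻¹ ∉ O) : OrdLe (x - c) 1 O := by
  have hv : O.valuation (x - c) < 1 := valuation_lt_one_of_nonunit h1 h2
  have hxc0 : x - c ≠ 0 := by
    intro h
    apply h2
    rw [h, inv_zero]
    exact O.zero_mem
  have hvc : O.valuation c = 1 := valuation_const_eq_one Lc hO hc hc0
  have hvx : O.valuation x = 1 := by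
    have := valuation_add_const_eq_one Lc hO hv hc hc0
    rwa [sub_add_cancel] at this
  have hx0 : x ≠ 0 := by
    intro h
    rw [h, map_zero] at hvx
    exact zero_ne_one hvx
  rw [ordLe_iff hxc0 one_ne_zero]
  intro t ht
  rw [pow_one]
  set c' : Ω := (c + 27) * (c + 243) ^ 3 / c ^ 3 with hc'
  have hc'mem : c' ∈ Lc :=
    Lc.div_mem (Lc.mul_mem (Lc.add_mem hc (by exact_mod_cast natCast_mem_subfield Lc 27))
      (Lc.pow_mem (Lc.add_mem hc (by exact_mod_cast natCast_mem_subfield Lc 243)) 3))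
      (Lc.pow_mem hc 3)
  have hc'c : c' * c ^ 3 = (c + 27) * (c + 243) ^ 3 := by
    rw [hc']
    field_simp
  set Q : Ω := c ^ 3 * x ^ 3 - 196830 * c ^ 2 * x ^ 2 - 19131876 * c * x * (x + c)
    - 387420489 * (x ^ 2 + x * c + c ^ 2) with hQ
  have hQmem : Q ∈ O := by
    have hxO : x ∈ O := (O.valuation_le_one_iff _).1 hvx.le
    have hcO : c ∈ O := hO c hc
    have hn1 : (196830 : Ω) ∈ O := hO _ (by exact_mod_cast natCast_mem_subfield Lc 196830)
    have hn2 : (19131876 : Ω) ∈ O := hO _ (by exact_mod_cast natCast_mem_subfield Lc 19131876)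
    have hn3 : (387420489 : Ω) ∈ O := hO _ (by exact_mod_cast natCast_mem_subfield Lc 387420489)
    refine sub_mem (sub_mem (sub_mem (mul_mem (pow_mem hcO 3) (pow_mem hxO 3))
      (mul_mem (mul_mem hn1 (pow_mem hcO 2)) (pow_mem hxO 2)))
      (mul_mem (mul_mem (mul_mem hn2 hcO) hxO) (add_mem hxO hcO)))
      (mul_mem hn3 (add_mem (add_mem (pow_mem hxO 2) (mul_mem hxO hcO))
        (pow_mem hcO 2)))
  have key : (j - c') * (x ^ 3 * c ^ 3) = (x - c) * Q := by
    have e1 : (j - c') * (x ^ 3 * c ^ 3) = (j * x ^ 3) * c ^ 3 - (c' * c ^ 3) * x ^ 3 := by ring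
    rw [e1, hjx, hc'c, hQ]
    ring
  have hjc' : j - c' ≠ 0 := sub_ne_zero.2 (hjc c' hc'mem)
  have hvjc : O.valuation (j - c') = O.valuation (x - c) * O.valuation Q := by
    have := congrArg O.valuation key
    rwa [map_mul, map_mul, map_mul, map_pow, map_pow, hvx, hvc, one_pow, mul_one,
      mul_one] at this
  have hvjc_le : O.valuation (j - c') ≤ O.valuation (x - c) := by
    rw [hvjc]
    exact mul_le_of_le_one_right' ((O.valuation_le_one_iff _).2 hQmem)
  have hvjc_lt : O.valuation (j - c') < 1 := lt_of_le_of_lt hvjc_le hv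
  obtain ⟨hj1, hj2⟩ := nonunit_of_valuation_lt_one hjc' hvjc_lt
  by_cases hc'0 : c' = 0
  · -- `c = -243`, over `j = 0`
    have hc243 : c = -243 := by
      have : (c + 27) * (c + 243) ^ 3 = 0 := by rw [← hc'c, hc'0, zero_mul]
      rcases mul_eq_zero.1 this with h | h
      · exact absurd (eq_neg_of_add_eq_zero_left h) hc27
      · exact eq_neg_of_add_eq_zero_left (pow_eq_zero_iff (by norm_num) |>.1 h)
    have hxc : x + 243 = x - c := by rw [hc243]; ring
    rw [hc'0, sub_zero] at hj1 hj2 hjc'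
    have h3 := (ordLe_iff hjc' (by norm_num : (3 : ℕ) ≠ 0)).1 (H0 hj1 hj2) t ht
    have hv27 : O.valuation (x + 27) = 1 := by
      have h216 : (-216 : Ω) ∈ Lc := Lc.neg_mem (by exact_mod_cast natCast_mem_subfield Lc 216)
      have := valuation_add_const_eq_one Lc hO hv h216 (by norm_num)
      have e : x - c + -216 = x + 27 := by rw [hc243]; ring
      rwa [e] at this
    have hvj : O.valuation j = O.valuation (x - c) ^ 3 := by
      have := congrArg O.valuation hjx
      rwa [map_mul, map_mul, map_pow, map_pow, hvx, hv27, one_pow, mul_one, one_mul, hxc]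
        at this
    rw [hvj] at h3
    exact (pow_le_pow_iff_left₀ zero_le zero_le (by norm_num : (3 : ℕ) ≠ 0)).1 h3
  by_cases hc'1 : c' = 1728
  · -- `c² - 486 c - 19683 = 0`, over `j = 1728`
    have hfac : c ^ 2 - 486 * c - 19683 = 0 := by
      have : (c + 27) * (c + 243) ^ 3 = 1728 * c ^ 3 := by rw [← hc'c, hc'1]
      have h2 : (c ^ 2 - 486 * c - 19683) ^ 2 = 0 := by linear_combination this
      exact pow_eq_zero_iff (by norm_num) |>.1 h2
    rw [hc'1] at hj1 hj2 hjc'
    have h3 := (ordLe_iff hjc' (by norm_num : (2 : ℕ) ≠ 0)).1 (H1728 hj1 hj2) t ht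
    have hconj0 : 2 * c - 486 ≠ 0 := by
      intro h
      have hc243 : c = 243 := by linear_combination h / 2
      rw [hc243] at hfac
      norm_num at hfac
    have hvconj : O.valuation (x + c - 486) = 1 := by
      have hmem : 2 * c - 486 ∈ Lc :=
        Lc.sub_mem (Lc.mul_mem (by exact_mod_cast natCast_mem_subfield Lc 2) hc)
          (by exact_mod_cast natCast_mem_subfield Lc 486)
      have := valuation_add_const_eq_one Lc hO hv hmem hconj0
      have e : x - c + (2 * c - 486) = x + c - 486 := by ring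
      rwa [e] at this
    have hvj : O.valuation (j - 1728) = O.valuation (x - c) ^ 2 := by
      have e : (j - 1728) * x ^ 3 = ((x - c) * (x + c - 486)) ^ 2 := by
        have : (j - 1728) * x ^ 3 = j * x ^ 3 - 1728 * x ^ 3 := by ring
        rw [this, hjx]
        linear_combination ((2 : Ω) * x ^ 2 - 972 * x - c ^ 2 + 486 * c - 19683) * hfac
      have := congrArg O.valuation e
      rwa [map_mul, map_pow, map_pow, map_mul, hvx, hvconj, one_pow, mul_one, mul_one] at this
    rw [hvj] at h3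
    exact (pow_le_pow_iff_left₀ zero_le zero_le (by norm_num : (2 : ℕ) ≠ 0)).1 h3
  · have h3 := (ordLe_iff hjc' one_ne_zero).1 (Hgen c' hc'mem hc'0 hc'1 hj1 hj2) t ht
    rw [pow_one] at h3
    exact h3.trans hvjc_le

end Fermat.Agent.S48.H648
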