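import Fermat.Agent.S48.H648.BrMain
import Fermat.Agent.S48.H648.BrCoord

/-!
# S48 / Tower A1 / A1-BR (helper648), part 5: `GoodModel.unramified` for the coordinates
`t₂`, `t₃` in every field embedded in the full-level field

`Ω` any field of characteristic `0` with an embedding `ψ : Ω →+* H828.IActField ι M`, constants
`Lc` with `ψ(Lc) = constants`, `jΩ : Ω` with `ψ jΩ = j`.

* `unramified_t2_of_embedding` : `x : Ω` with `jΩ * x² = (x + 256)³`; for `c ∈ Lc`,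
  `c ∉ {0, -64}`, `x - c` a non-unit of `O ⊇ Lc`: `t * (x - c)⁻¹ ∈ O` for all non-units `t`.
* `unramified_t3_of_embedding` : `x : Ω` with `jΩ * x³ = (x + 27)(x + 243)³`, `c ∉ {0, -27}`.

These are literally the conclusions of `S18.Alg.GoodModel.unramified` for the three admissible
coordinates of `S18.Mod.IsCoordinate` (`unramified_j_of_embedding` for `x = j`).
-/

set_option autoImplicit false
set_option linter.unusedSectionVars false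

noncomputable section

open scoped MatrixGroups

namespace Fermat.Agent.S48.H648

open Fermat.Agent.S48.H828 Fermat.Agent.S20.L1 Fermat.Agent.S24.M7.H47

variable {E : Type*} [Field E] [CharZero E] (ι : E →+* ℂ) (M : ℕ) [NeZero M]
variable {Ω : Type*} [Field Ω] [CharZero Ω]

/-- `j` is not a constant. -/
theorem iactFJ_ne_const (b : E) : iactFJ ι M ≠ iactFC ι M b := by
  intro h
  have h1 : iactJ ι M = iactC ι M b :=
    IsFractionRing.injective (iactRing ι M) (IActField ι M) h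
  obtain ⟨τ, hτ⟩ := jFun_surjective (ι b + 1)
  have h2 : jFun τ = ι b := congrFun (congrArg Subtype.val h1) τ
  rw [hτ] at h2
  exact one_ne_zero (add_eq_left.1 h2)

/-- The three `j`-inputs of `ordLe_t2`, `ordLe_t3` for a field embedded in the full-level field. -/
theorem j_inputs_of_embedding (ψ : Ω →+* IActField ι M) (Lc : Subfield Ω) (jΩ : Ω)
    (hconst : ∀ b : E, ∃ a ∈ Lc, ψ a = iactFC ι M b)
    (hLc : ∀ a ∈ Lc, ∃ b : E, ψ a = iactFC ι M b) (hj : ψ jΩ = iactFJ ι M)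
    (O : ValuationSubring Ω) (hO : ∀ a ∈ Lc, a ∈ O) :
    (∀ a ∈ Lc, jΩ ≠ a) ∧
    (∀ a ∈ Lc, a ≠ 0 → a ≠ 1728 → jΩ - a ∈ O → (jΩ - a)⁻¹ ∉ O → OrdLe (jΩ - a) 1 O) ∧
    (jΩ ∈ O → jΩ⁻¹ ∉ O → OrdLe jΩ 3 O) ∧
    (jΩ - 1728 ∈ O → (jΩ - 1728)⁻¹ ∉ O → OrdLe (jΩ - 1728) 2 O) := by
  refine ⟨fun a ha h => ?_, fun a ha ha0 ha1 h1 h2 t ht ht' => ?_,
    fun h1 h2 => ordLe_zero_of_embedding ι M ψ Lc jΩ hconst hj O hO h1 h2,
    fun h1 h2 => ordLe_1728_of_embedding ι M ψ Lc jΩ hconst hj O hO h1 h2⟩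
  · obtain ⟨b, hb⟩ := hLc a ha
    apply iactFJ_ne_const ι M b
    rw [← hj, ← hb, h]
  · rw [pow_one]
    exact unramified_j_of_embedding ι M ψ Lc jΩ hconst hLc hj O hO a ha ha0 ha1 h1 h2 t ht ht'

/-- **`GoodModel.unramified` for the coordinate `t₂`** (`ℓ = 3`), `S = {0, -64}`. -/
theorem unramified_t2_of_embedding (ψ : Ω →+* IActField ι M) (Lc : Subfield Ω) (jΩ x : Ω)
    (hconst : ∀ b : E, ∃ a ∈ Lc, ψ a = iactFC ι M b)
    (hLc : ∀ a ∈ Lc, ∃ b : E, ψ a = iactFC ι M b) (hj : ψ jΩ = iactFJ ι M)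
    (hjx : jΩ * x ^ 2 = (x + 256) ^ 3)
    (O : ValuationSubring Ω) (hO : ∀ a ∈ Lc, a ∈ O) (c : Ω) (hc : c ∈ Lc)
    (hc0 : c ≠ 0) (hc64 : c ≠ -64) (h1 : x - c ∈ O) (h2 : (x - c)⁻¹ ∉ O)
    (t : Ω) (ht : t ∈ O) (ht' : t⁻¹ ∉ O) : t * (x - c)⁻¹ ∈ O := by
  obtain ⟨hjc, Hgen, H0, H1728⟩ := j_inputs_of_embedding ι M ψ Lc jΩ hconst hLc hj O hO
  have := ordLe_t2 Lc O hO jΩ x hjx hjc Hgen H0 H1728 c hc hc0 hc64 h1 h2 t ht ht'
  rwa [pow_one] at this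

/-- **`GoodModel.unramified` for the coordinate `t₃`** (`ℓ = 2`), `S = {0, -27}`. -/
theorem unramified_t3_of_embedding (ψ : Ω →+* IActField ι M) (Lc : Subfield Ω) (jΩ x : Ω)
    (hconst : ∀ b : E, ∃ a ∈ Lc, ψ a = iactFC ι M b)
    (hLc : ∀ a ∈ Lc, ∃ b : E, ψ a = iactFC ι M b) (hj : ψ jΩ = iactFJ ι M)
    (hjx : jΩ * x ^ 3 = (x + 27) * (x + 243) ^ 3)
    (O : ValuationSubring Ω) (hO : ∀ a ∈ Lc, a ∈ O) (c : Ω) (hc : c ∈ Lc)
    (hc0 : c ≠ 0) (hc27 : c ≠ -27) (h1 : x - c ∈ O) (h2 : (x - c)⁻¹ ∉ O)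
    (t : Ω) (ht : t ∈ O) (ht' : t⁻¹ ∉ O) : t * (x - c)⁻¹ ∈ O := by
  obtain ⟨hjc, Hgen, H0, H1728⟩ := j_inputs_of_embedding ι M ψ Lc jΩ hconst hLc hj O hO
  have := ordLe_t3 Lc O hO jΩ x hjx hjc Hgen H0 H1728 c hc hc0 hc27 h1 h2 t ht ht'
  rwa [pow_one] at this

end Fermat.Agent.S48.H648
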