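import Fermat.Agent.S48.H648.BrCoordMain

/-!
# S48 / Tower A1 / A1-BR (helper648), part 6: fields of `q`-series with avatars

The consumer (A1-FF / A1-RED) works with `Ω = laurentBaseChange E F₀`, `F₀` a field of rational
`q`-series (e.g. `F₁(M) = ℚ(j, Y_c)`).  The full-level field `H828.IActField ι M` lives in the
variable `X = q^{1/M}`.

* `avatarField ι M : Subfield (LaurentSeries E)` : the `q`-series `f` such that `f(X^M)` is the
  `X`-expansion of an element of `IActField ι M` ("`f` has an avatar").  It contains the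
  constants and `j` (`const_mem_avatarField`, `jq_mem_avatarField`).
* `avatarEmb ι M : avatarField ι M →+* IActField ι M`, with
  `iactFieldExp (avatarEmb f) = qExpand E M f`.
* `coeffEmb_mem_avatarField_of_adjoin` : it suffices to produce avatars for GENERATORS of `F₀`.
* `unramified_j_laurentBaseChange`, `unramified_t2_laurentBaseChange`,
  `unramified_t3_laurentBaseChange` : the field `unramified` of `S18.Alg.GoodModel` for
  `Ω = laurentBaseChange E F₀`, `Lc = (algebraMap E Ω).fieldRange`, as soon as the generators of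
  `F₀` have avatars.
-/

set_option autoImplicit false
set_option linter.unusedSectionVars false

noncomputable section

open ModularCurve HahnSeries
open scoped MatrixGroups

namespace Fermat.Agent.S48.H648

open Fermat.Agent.S48.H828

variable {E : Type*} [Field E] [CharZero E] (ι : E →+* ℂ) (M : ℕ) [NeZero M]

/-- The `q`-series over `E` with an avatar in the full-level field. -/
def avatarField : Subfield (LaurentSeries E) :=
  (iactFieldExp ι M).fieldRange.comap (qExpand E M)

variable {ι M}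

theorem mem_avatarField {f : LaurentSeries E} :
    f ∈ avatarField ι M ↔ ∃ y : IActField ι M, iactFieldExp ι M y = qExpand E M f := Iff.rfl

theorem mem_avatarField_of_ring {f : LaurentSeries E} (g : iactRing ι M)
    (hg : iactExp ι M g = qExpand E M f) : f ∈ avatarField ι M :=
  ⟨algebraMap _ _ g, by rw [iactFieldExp_algebraMap, hg]⟩

theorem C_mem_avatarField (a : E) : HahnSeries.C a ∈ avatarField ι M :=
  ⟨iactFC ι M a, by rw [iactFieldExp_C, qExpand_C]⟩

theorem const_mem_avatarField (a : E) : algebraMap E (LaurentSeries E) a ∈ avatarField ι M := by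
  rw [algebraMap_laurentSeries_eq_single]
  exact C_mem_avatarField a

theorem jq_mem_avatarField : coeffEmb E jq ∈ avatarField ι M :=
  ⟨iactFJ ι M, by rw [iactFieldExp_J]; rfl⟩

variable (ι M)

/-- The embedding of the field of `q`-series with avatars into the full-level field. -/
def avatarEmb : avatarField ι M →+* IActField ι M where
  toFun f := Classical.choose (mem_avatarField.1 f.2)
  map_one' := by
    apply iactFieldExp_injective (ι := ι) (M := M)
    rw [Classical.choose_spec (mem_avatarField.1 (1 : avatarField ι M).2), RingHom.map_one]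
    exact RingHom.map_one _
  map_mul' f g := by
    apply iactFieldExp_injective (ι := ι) (M := M)
    rw [RingHom.map_mul, Classical.choose_spec (mem_avatarField.1 (f * g).2),
      Classical.choose_spec (mem_avatarField.1 f.2),
      Classical.choose_spec (mem_avatarField.1 g.2)]
    exact RingHom.map_mul _ _ _
  map_zero' := by
    apply iactFieldExp_injective (ι := ι) (M := M)
    rw [Classical.choose_spec (mem_avatarField.1 (0 : avatarField ι M).2), RingHom.map_zero]
    exact RingHom.map_zero _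
  map_add' f g := by
    apply iactFieldExp_injective (ι := ι) (M := M)
    rw [RingHom.map_add, Classical.choose_spec (mem_avatarField.1 (f + g).2),
      Classical.choose_spec (mem_avatarField.1 f.2),
      Classical.choose_spec (mem_avatarField.1 g.2)]
    exact RingHom.map_add _ _ _

variable {ι M}

theorem iactFieldExp_avatarEmb (f : avatarField ι M) :
    iactFieldExp ι M (avatarEmb ι M f) = qExpand E M (f : LaurentSeries E) :=
  Classical.choose_spec (mem_avatarField.1 f.2)

theorem avatarEmb_eq_iff (f : avatarField ι M) (y : IActField ι M) :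
    avatarEmb ι M f = y ↔ iactFieldExp ι M y = qExpand E M (f : LaurentSeries E) := by
  constructor
  · rintro rfl
    exact iactFieldExp_avatarEmb f
  · intro h
    apply iactFieldExp_injective (ι := ι) (M := M)
    rw [h, iactFieldExp_avatarEmb]

theorem avatarEmb_const (a : E) (h : algebraMap E (LaurentSeries E) a ∈ avatarField ι M) :
    avatarEmb ι M ⟨_, h⟩ = iactFC ι M a := by
  rw [avatarEmb_eq_iff, iactFieldExp_C]
  show _ = qExpand E M (algebraMap E (LaurentSeries E) a)
  rw [algebraMap_laurentSeries_eq_single]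
  exact (qExpand_C M a).symm

theorem avatarEmb_jq (h : coeffEmb E jq ∈ avatarField ι M) :
    avatarEmb ι M ⟨_, h⟩ = iactFJ ι M := by
  rw [avatarEmb_eq_iff, iactFieldExp_J]
  rfl

/-- Avatars for generators suffice. -/
theorem coeffEmb_mem_avatarField_of_adjoin (S : Set (LaurentSeries ℚ))
    (hS : ∀ s ∈ S, coeffEmb E s ∈ avatarField ι M) :
    ∀ x ∈ IntermediateField.adjoin ℚ S, coeffEmb E x ∈ avatarField ι M := by
  intro x hx
  have hx' : x ∈ Subfield.closure (Set.range (algebraMap ℚ (LaurentSeries ℚ)) ∪ S) := hx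
  have hle : Subfield.closure (Set.range (algebraMap ℚ (LaurentSeries ℚ)) ∪ S)
      ≤ (avatarField ι M).comap (coeffEmb E) := by
    rw [Subfield.closure_le]
    rintro y (⟨c, rfl⟩ | hy)
    · show coeffEmb E (algebraMap ℚ (LaurentSeries ℚ) c) ∈ avatarField ι M
      have : coeffEmb E (algebraMap ℚ (LaurentSeries ℚ) c)
          = HahnSeries.C (algebraMap ℚ E c) := by
        rw [algebraMap_apply_eq_single, coeffEmb, coeffMap_single]
        rfl
      rw [this]
      exact C_mem_avatarField _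
    · exact hS y hy
  exact hle hx'

theorem laurentBaseChange_le_avatarField (F₀ : IntermediateField ℚ (LaurentSeries ℚ))
    (hF₀ : ∀ x ∈ F₀, coeffEmb E x ∈ avatarField ι M) :
    (laurentBaseChange E F₀).toSubfield ≤ avatarField ι M := by
  intro f hf
  have hf' : f ∈ Subfield.closure (Set.range (algebraMap E (LaurentSeries E)) ∪
      (⇑(coeffEmb E) '' (F₀ : Set (LaurentSeries ℚ)))) := hf
  revert hf'
  apply (Subfield.closure_le (t := avatarField ι M)).2
  rintro y (⟨c, rfl⟩ | ⟨x, hx, rfl⟩)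
  · exact const_mem_avatarField c
  · exact hF₀ x hx

variable (ι M)

/-- The embedding `laurentBaseChange E F₀ →+* IActField`, `q ↦ X^M`. -/
def baseChangeEmb (F₀ : IntermediateField ℚ (LaurentSeries ℚ))
    (hF₀ : ∀ x ∈ F₀, coeffEmb E x ∈ avatarField ι M) :
    ↥(laurentBaseChange E F₀) →+* IActField ι M :=
  (avatarEmb ι M).comp (Subfield.inclusion (laurentBaseChange_le_avatarField F₀ hF₀))

variable {ι M}

theorem iactFieldExp_baseChangeEmb (F₀ : IntermediateField ℚ (LaurentSeries ℚ))
    (hF₀ : ∀ x ∈ F₀, coeffEmb E x ∈ avatarField ι M) (f : ↥(laurentBaseChange E F₀)) :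
    iactFieldExp ι M (baseChangeEmb ι M F₀ hF₀ f) = qExpand E M (f : LaurentSeries E) :=
  iactFieldExp_avatarEmb _

theorem baseChangeEmb_eq_iff (F₀ : IntermediateField ℚ (LaurentSeries ℚ))
    (hF₀ : ∀ x ∈ F₀, coeffEmb E x ∈ avatarField ι M) (f : ↥(laurentBaseChange E F₀))
    (y : IActField ι M) :
    baseChangeEmb ι M F₀ hF₀ f = y ↔ iactFieldExp ι M y = qExpand E M (f : LaurentSeries E) :=
  avatarEmb_eq_iff _ y

theorem baseChangeEmb_algebraMap (F₀ : IntermediateField ℚ (LaurentSeries ℚ))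
    (hF₀ : ∀ x ∈ F₀, coeffEmb E x ∈ avatarField ι M) (a : E) :
    baseChangeEmb ι M F₀ hF₀ (algebraMap E ↥(laurentBaseChange E F₀) a) = iactFC ι M a := by
  rw [baseChangeEmb_eq_iff, iactFieldExp_C]
  show _ = qExpand E M (algebraMap E (LaurentSeries E) a)
  rw [algebraMap_laurentSeries_eq_single]
  exact (qExpand_C M a).symm

section Final

variable (F₀ : IntermediateField ℚ (LaurentSeries ℚ))
  (hF₀ : ∀ x ∈ F₀, coeffEmb E x ∈ avatarField ι M)
  [CharZero ↥(laurentBaseChange E F₀)]

include hF₀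

theorem baseChange_hconst :
    ∀ b : E, ∃ a ∈ (algebraMap E ↥(laurentBaseChange E F₀)).fieldRange,
      baseChangeEmb ι M F₀ hF₀ a = iactFC ι M b :=
  fun b => ⟨_, ⟨b, rfl⟩, baseChangeEmb_algebraMap F₀ hF₀ b⟩

theorem baseChange_hLc :
    ∀ a ∈ (algebraMap E ↥(laurentBaseChange E F₀)).fieldRange,
      ∃ b : E, baseChangeEmb ι M F₀ hF₀ a = iactFC ι M b := by
  rintro _ ⟨b, rfl⟩
  exact ⟨b, baseChangeEmb_algebraMap F₀ hF₀ b⟩

theorem baseChange_hj (jΩ : ↥(laurentBaseChange E F₀))
    (hj : (jΩ : LaurentSeries E) = coeffEmb E jq) :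
    baseChangeEmb ι M F₀ hF₀ jΩ = iactFJ ι M := by
  rw [baseChangeEmb_eq_iff, iactFieldExp_J, hj]
  rfl

/-- **`GoodModel.unramified`, coordinate `j`, `S = {0, 1728}`**, for `Ω = laurentBaseChange E F₀`
and `Lc = (algebraMap E Ω).fieldRange`. -/
theorem unramified_j_laurentBaseChange (jΩ : ↥(laurentBaseChange E F₀))
    (hj : (jΩ : LaurentSeries E) = coeffEmb E jq)
    (O : ValuationSubring ↥(laurentBaseChange E F₀))
    (hO : ∀ a ∈ (algebraMap E ↥(laurentBaseChange E F₀)).fieldRange, a ∈ O)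
    (c : ↥(laurentBaseChange E F₀))
    (hc : c ∈ (algebraMap E ↥(laurentBaseChange E F₀)).fieldRange)
    (hc0 : c ≠ 0) (hc1 : c ≠ 1728) (h1 : jΩ - c ∈ O) (h2 : (jΩ - c)⁻¹ ∉ O)
    (t : ↥(laurentBaseChange E F₀)) (ht : t ∈ O) (ht' : t⁻¹ ∉ O) : t * (jΩ - c)⁻¹ ∈ O :=
  unramified_j_of_embedding ι M (baseChangeEmb ι M F₀ hF₀) _ jΩ (baseChange_hconst F₀ hF₀)
    (baseChange_hLc F₀ hF₀) (baseChange_hj F₀ hF₀ jΩ hj) O hO c hc hc0 hc1 h1 h2 t ht ht'

/-- **`GoodModel.unramified`, coordinate `t₂`, `S = {0, -64}`.** -/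
theorem unramified_t2_laurentBaseChange (jΩ x : ↥(laurentBaseChange E F₀))
    (hj : (jΩ : LaurentSeries E) = coeffEmb E jq) (hjx : jΩ * x ^ 2 = (x + 256) ^ 3)
    (O : ValuationSubring ↥(laurentBaseChange E F₀))
    (hO : ∀ a ∈ (algebraMap E ↥(laurentBaseChange E F₀)).fieldRange, a ∈ O)
    (c : ↥(laurentBaseChange E F₀))
    (hc : c ∈ (algebraMap E ↥(laurentBaseChange E F₀)).fieldRange)
    (hc0 : c ≠ 0) (hc64 : c ≠ -64) (h1 : x - c ∈ O) (h2 : (x - c)⁻¹ ∉ O)
    (t : ↥(laurentBaseChange E F₀)) (ht : t ∈ O) (ht' : t⁻¹ ∉ O) : t * (x - c)⁻¹ ∈ O :=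
  unramified_t2_of_embedding ι M (baseChangeEmb ι M F₀ hF₀) _ jΩ x (baseChange_hconst F₀ hF₀)
    (baseChange_hLc F₀ hF₀) (baseChange_hj F₀ hF₀ jΩ hj) hjx O hO c hc hc0 hc64 h1 h2 t ht ht'

/-- **`GoodModel.unramified`, coordinate `t₃`, `S = {0, -27}`.** -/
theorem unramified_t3_laurentBaseChange (jΩ x : ↥(laurentBaseChange E F₀))
    (hj : (jΩ : LaurentSeries E) = coeffEmb E jq)
    (hjx : jΩ * x ^ 3 = (x + 27) * (x + 243) ^ 3)
    (O : ValuationSubring ↥(laurentBaseChange E F₀))
    (hO : ∀ a ∈ (algebraMap E ↥(laurentBaseChange E F₀)).fieldRange, a ∈ O)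
    (c : ↥(laurentBaseChange E F₀))
    (hc : c ∈ (algebraMap E ↥(laurentBaseChange E F₀)).fieldRange)
    (hc0 : c ≠ 0) (hc27 : c ≠ -27) (h1 : x - c ∈ O) (h2 : (x - c)⁻¹ ∉ O)
    (t : ↥(laurentBaseChange E F₀)) (ht : t ∈ O) (ht' : t⁻¹ ∉ O) : t * (x - c)⁻¹ ∈ O :=
  unramified_t3_of_embedding ι M (baseChangeEmb ι M F₀ hF₀) _ jΩ x (baseChange_hconst F₀ hF₀)
    (baseChange_hLc F₀ hF₀) (baseChange_hj F₀ hF₀ jΩ hj) hjx O hO c hc hc0 hc27 h1 h2 t ht ht'

end Final

end Fermat.Agent.S48.H648
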