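import Fermat.Agent.S48.H648.AvF1
import Fermat.Agent.S48.H668.F1Avatar
import Fermat.Agent.S48.H828.IActPhi

/-!
# S48 / Tower A1 / A1-RED leaf R4f (helper648): the field `unramified` for `ℚ̄·F1(M)`,
UNCONDITIONAL

`Ω' = ↥(laurentBaseChange Qb (F1 M))` (`= H908.Core1.OmG (F1 M)`),
`Lc' = (algebraMap Qb Ω').fieldRange` (`= H908.Core1.LcG (F1 M)`, unfolded).

* `hasDivAvatars ζ hζ : HasDivAvatars ι M` (from `H668.pAv`);
* `IsCoordF1 M x S` : `x` is one of the coordinates `j` (`S = {0, 1728}`),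
  `t₂` (`j x² = (x+256)³`, `S = {0, -64}`), `t₃` (`j x³ = (x+27)(x+243)³`, `S = {0, -27}`);
* `unramified_F1` : the field `unramified` of `S18.Alg.GoodModel` for `(Lc', x, S)`, VERBATIM;
* `isCoordF1_of_isCoordinate` : `S18.Mod.IsCoordinate M ℓ x S` is transported by any ring
  homomorphism `ι : S18.Mod.Om M →+* Ω'` compatible with the coercions to `ℚ̄((q))`;
* `hunr_stepU_F1` : the hypothesis `hunr` of `H588.goodModel_stepU` / `H588.goodFamily_stepU`,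
  VERBATIM, for such an `ι` and `Lc = S18.Mod.Lc M`;
* the same for `F1p M p` (`IsCoordF1p`, `unramified_F1p`).
-/

set_option autoImplicit false
set_option linter.unusedSectionVars false
set_option linter.style.haveILetI false

noncomputable section

open ModularCurve HahnSeries

namespace Fermat.Agent.S48.H648

open Fermat.Agent.S48.H828 Fermat.Agent.S24 Fermat.Agent.S24.H997 Fermat.Agent.S48.F1
open Fermat.Agent.S18 (Qb)

/-- I-GEN in the form consumed by `AvF1.lean`. -/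
theorem hasDivAvatars {E : Type*} [Field E] [CharZero E] {ι : E →+* ℂ} {M : ℕ} [NeZero M]
    (ζ : Eˣ) (hζ : Units.map (ι : E →* ℂ) ζ = infRoot 1 M) : HasDivAvatars ι M :=
  fun a ha => ⟨H668.pAv ζ hζ a, H668.iactExp_pAv ζ hζ ha⟩

/-! ### Generic form: any `F₀` all of whose elements have avatars over `ℚ̄` -/

section Gen

variable {K : ℕ} [NeZero K] (F₀ : IntermediateField ℚ (LaurentSeries ℚ))

/-- `x` is one of the three admissible coordinates of `ℚ̄·F₀`, with branch set `S`. -/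
def IsCoordG (x : ↥(laurentBaseChange Qb F₀)) (S : Finset ↥(laurentBaseChange Qb F₀)) : Prop :=
  ∃ jΩ : ↥(laurentBaseChange Qb F₀), (jΩ : LaurentSeries Qb) = coeffEmb Qb jq ∧
    ((x = jΩ ∧ ∀ s, s ∈ S ↔ s = 0 ∨ s = 1728) ∨
      (jΩ * x ^ 2 = (x + 256) ^ 3 ∧ ∀ s, s ∈ S ↔ s = 0 ∨ s = -64) ∨
      (jΩ * x ^ 3 = (x + 27) * (x + 243) ^ 3 ∧ ∀ s, s ∈ S ↔ s = 0 ∨ s = -27))

variable {F₀}

/-- **`GoodModel.unramified`** for `ℚ̄·F₀` as soon as the elements of `F₀` have avatars of some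
level `K`. -/
theorem unramified_of_avatars (hF₀ : ∀ x ∈ F₀, coeffEmb Qb x ∈ avatarField ιK K)
    {x : ↥(laurentBaseChange Qb F₀)} {S : Finset ↥(laurentBaseChange Qb F₀)}
    (hx : IsCoordG F₀ x S) :
    ∀ O : ValuationSubring ↥(laurentBaseChange Qb F₀),
      (∀ a ∈ (algebraMap Qb ↥(laurentBaseChange Qb F₀)).fieldRange, a ∈ O) →
      ∀ c ∈ (algebraMap Qb ↥(laurentBaseChange Qb F₀)).fieldRange, c ∉ S →
      x - c ∈ O → (x - c)⁻¹ ∉ O → ∀ t ∈ O, t⁻¹ ∉ O → t * (x - c)⁻¹ ∈ O := by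
  intro O hO c hc hcS h1 h2 t ht ht'
  obtain ⟨jΩ, hj, h | h | h⟩ := hx
  · obtain ⟨rfl, hS⟩ := h
    have hc0 : c ≠ 0 := fun h0 => hcS ((hS c).2 (Or.inl h0))
    have hc1 : c ≠ 1728 := fun h0 => hcS ((hS c).2 (Or.inr h0))
    exact unramified_j_laurentBaseChange (ι := ιK) (M := K) F₀ hF₀ x hj O hO c hc hc0 hc1
      h1 h2 t ht ht'
  · obtain ⟨hjx, hS⟩ := h
    have hc0 : c ≠ 0 := fun h0 => hcS ((hS c).2 (Or.inl h0))
    have hc1 : c ≠ -64 := fun h0 => hcS ((hS c).2 (Or.inr h0))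
    exact unramified_t2_laurentBaseChange (ι := ιK) (M := K) F₀ hF₀ jΩ x hj hjx O hO c hc hc0
      hc1 h1 h2 t ht ht'
  · obtain ⟨hjx, hS⟩ := h
    have hc0 : c ≠ 0 := fun h0 => hcS ((hS c).2 (Or.inl h0))
    have hc1 : c ≠ -27 := fun h0 => hcS ((hS c).2 (Or.inr h0))
    exact unramified_t3_laurentBaseChange (ι := ιK) (M := K) F₀ hF₀ jΩ x hj hjx O hO c hc hc0
      hc1 h1 h2 t ht ht'

end Gen

/-! ### `F1 M` and `F1p M p` -/

section F1

variable (M : ℕ) [NeZero M]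

/-- Every element of `F1 M` has an avatar of level `M` over `ℚ̄`. -/
theorem coeffEmb_mem_avatarField_F1_Qb :
    ∀ x ∈ F1 M, coeffEmb Qb x ∈ avatarField ιK M :=
  H668.coeffEmb_mem_avatarField_F1 (iactZeta M) (iactZeta_spec M)

/-- Every element of `F1p M p` has an avatar of level `M * p` over `ℚ̄`. -/
theorem coeffEmb_mem_avatarField_F1p_Qb (p : ℕ) [NeZero p] [NeZero (M * p)] :
    ∀ x ∈ F1p M p, coeffEmb Qb x ∈ avatarField ιK (M * p) := fun _ hx =>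
  F1p_le_avatarIF (iactZeta (M * p)) (iactZeta_spec (M * p))
    (hasDivAvatars (ι := ιK) (M := M) ((iactZeta (M * p)) ^ p)
      (infRoot_pow_of_mul (iactZeta (M * p)) (iactZeta_spec (M * p)))) hx

/-- **R4f for `F1 M`**: the field `unramified` of `S18.Alg.GoodModel`, VERBATIM, for
`Ω' = ℚ̄·F1(M)`, `Lc' = ℚ̄`, any admissible coordinate. -/
theorem unramified_F1 {x : ↥(laurentBaseChange Qb (F1 M))}
    {S : Finset ↥(laurentBaseChange Qb (F1 M))} (hx : IsCoordG (F1 M) x S) :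
    ∀ O : ValuationSubring ↥(laurentBaseChange Qb (F1 M)),
      (∀ a ∈ (algebraMap Qb ↥(laurentBaseChange Qb (F1 M))).fieldRange, a ∈ O) →
      ∀ c ∈ (algebraMap Qb ↥(laurentBaseChange Qb (F1 M))).fieldRange, c ∉ S →
      x - c ∈ O → (x - c)⁻¹ ∉ O → ∀ t ∈ O, t⁻¹ ∉ O → t * (x - c)⁻¹ ∈ O :=
  unramified_of_avatars (K := M) (coeffEmb_mem_avatarField_F1_Qb M) hx

/-- **R4f for `F1p M p`**. -/
theorem unramified_F1p (p : ℕ) [NeZero p] {x : ↥(laurentBaseChange Qb (F1p M p))}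
    {S : Finset ↥(laurentBaseChange Qb (F1p M p))} (hx : IsCoordG (F1p M p) x S) :
    ∀ O : ValuationSubring ↥(laurentBaseChange Qb (F1p M p)),
      (∀ a ∈ (algebraMap Qb ↥(laurentBaseChange Qb (F1p M p))).fieldRange, a ∈ O) →
      ∀ c ∈ (algebraMap Qb ↥(laurentBaseChange Qb (F1p M p))).fieldRange, c ∉ S →
      x - c ∈ O → (x - c)⁻¹ ∉ O → ∀ t ∈ O, t⁻¹ ∉ O → t * (x - c)⁻¹ ∈ O := by
  haveI : NeZero (M * p) := ⟨Nat.mul_ne_zero (NeZero.ne M) (NeZero.ne p)⟩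
  exact unramified_of_avatars (K := M * p) (coeffEmb_mem_avatarField_F1p_Qb M p) hx

end F1

/-! ### Transport of `S18.Mod.IsCoordinate` and the hypothesis `hunr` of `H588.goodFamily_stepU` -/

section Step

open Fermat.Agent.S18.Mod

variable {M : ℕ} [NeZero M] {F₀ : IntermediateField ℚ (LaurentSeries ℚ)}
  (ι : Om M →+* ↥(laurentBaseChange Qb F₀))
  (hι : ∀ f : Om M, ((ι f : ↥(laurentBaseChange Qb F₀)) : LaurentSeries Qb) = (f : LaurentSeries Qb))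

include hι

theorem map_algebraMap_of_coe (c : Qb) :
    ι (algebraMap Qb (Om M) c) = algebraMap Qb ↥(laurentBaseChange Qb F₀) c := by
  apply Subtype.ext
  rw [hι, IntermediateField.coe_algebraMap_apply, IntermediateField.coe_algebraMap_apply]

/-- `ι(Lc M)` is the field of constants of `ℚ̄·F₀`. -/
theorem map_Lc_eq :
    (Lc M).map ι = (algebraMap Qb ↥(laurentBaseChange Qb F₀)).fieldRange := by
  ext a
  constructor
  · rintro ⟨b, ⟨c, rfl⟩, rfl⟩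
    exact ⟨c, (map_algebraMap_of_coe ι hι c).symm⟩
  · rintro ⟨c, rfl⟩
    exact ⟨algebraMap Qb (Om M) c, ⟨c, rfl⟩, map_algebraMap_of_coe ι hι c⟩

/-- An S18 coordinate stays a coordinate in `ℚ̄·F₀`. -/
theorem isCoordG_of_isCoordinate {ℓ : ℕ} {x : Om M} {S : Finset (Om M)}
    (hx : IsCoordinate M ℓ x S) : IsCoordG F₀ (ι x) (S.map ⟨ι, ι.injective⟩) := by
  have hj : ((ι (jOm M) : ↥(laurentBaseChange Qb F₀)) : LaurentSeries Qb) = coeffEmb Qb jq := by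
    rw [hι]
    show coeffEmb Qb (qExpand ℚ 1 jq) = _
    rw [qExpand_one_apply]
  have hS : ∀ (u v : Om M), (∀ s, s ∈ S ↔ s = u ∨ s = v) →
      ∀ s, s ∈ S.map ⟨ι, ι.injective⟩ ↔ s = ι u ∨ s = ι v := by
    intro u v h s
    rw [Finset.mem_map]
    constructor
    · rintro ⟨s₀, hs₀, rfl⟩
      rcases (h s₀).1 hs₀ with rfl | rfl
      · exact Or.inl rfl
      · exact Or.inr rfl
    · rintro (rfl | rfl)
      · exact ⟨u, (h u).2 (Or.inl rfl), rfl⟩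
      · exact ⟨v, (h v).2 (Or.inr rfl), rfl⟩
  have h0 : ι 0 = 0 := map_zero ι
  have h1728 : ι 1728 = 1728 := map_ofNat ι 1728
  have h256 : ι 256 = 256 := map_ofNat ι 256
  have h243 : ι 243 = 243 := map_ofNat ι 243
  have h27' : ι 27 = 27 := map_ofNat ι 27
  have h64 : ι (-64) = -64 := by rw [map_neg, map_ofNat]
  have h27 : ι (-27) = -27 := by rw [map_neg, map_ofNat]
  refine ⟨ι (jOm M), hj, ?_⟩
  rcases hx with ⟨-, rfl, h⟩ | ⟨⟨-, hrel, h⟩ | ⟨-, hrel, h⟩, -⟩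
  · refine Or.inl ⟨rfl, fun s => ?_⟩
    rw [hS 0 1728 h s, h0, h1728]
  · refine Or.inr (Or.inl ⟨?_, fun s => ?_⟩)
    · have := congrArg ι hrel
      rw [RingHom.map_mul, RingHom.map_pow, RingHom.map_pow, RingHom.map_add, h256] at this
      exact this
    · rw [hS 0 (-64) h s, h0, h64]
  · refine Or.inr (Or.inr ⟨?_, fun s => ?_⟩)
    · have := congrArg ι hrel
      rw [RingHom.map_mul, RingHom.map_pow, RingHom.map_mul, RingHom.map_pow, RingHom.map_add,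
        RingHom.map_add, h27', h243] at this
      exact this
    · rw [hS 0 (-27) h s, h0, h27]

/-- **The hypothesis `hunr` of `H588.goodModel_stepU` / `H588.goodFamily_stepU`, VERBATIM**, for
`Ω = S18.Mod.Om M`, `Lc = S18.Mod.Lc M`, `Ω' = ℚ̄·F₀`, as soon as the elements of `F₀` have avatars
of some level `K`. -/
theorem hunr_stepU_of_avatars {K : ℕ} [NeZero K]
    (hF₀ : ∀ x ∈ F₀, coeffEmb Qb x ∈ avatarField ιK K)
    {ℓ : ℕ} {x : Om M} {S : Finset (Om M)} (hx : IsCoordinate M ℓ x S) :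
    ∀ O : ValuationSubring ↥(laurentBaseChange Qb F₀), (∀ a ∈ (Lc M).map ι, a ∈ O) →
      ∀ c ∈ (Lc M).map ι, c ∉ S.map ⟨ι, ι.injective⟩ → ι x - c ∈ O → (ι x - c)⁻¹ ∉ O →
      ∀ t ∈ O, t⁻¹ ∉ O → t * (ι x - c)⁻¹ ∈ O := by
  rw [map_Lc_eq ι hι]
  exact unramified_of_avatars hF₀ (isCoordG_of_isCoordinate ι hι hx)

end Step

section StepF1

open Fermat.Agent.S18.Mod

variable {M : ℕ} [NeZero M]

/-- **`hunr` of `H588.goodFamily_stepU` for the step `ℚ̄·F0(M) ⊆ ℚ̄·F1(M)`, VERBATIM.** -/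
theorem hunr_stepU_F1 (ι : Om M →+* ↥(laurentBaseChange Qb (F1 M)))
    (hι : ∀ f : Om M,
      ((ι f : ↥(laurentBaseChange Qb (F1 M))) : LaurentSeries Qb) = (f : LaurentSeries Qb))
    {ℓ : ℕ} {x : Om M} {S : Finset (Om M)} (hx : IsCoordinate M ℓ x S) :
    ∀ O : ValuationSubring ↥(laurentBaseChange Qb (F1 M)), (∀ a ∈ (Lc M).map ι, a ∈ O) →
      ∀ c ∈ (Lc M).map ι, c ∉ S.map ⟨ι, ι.injective⟩ → ι x - c ∈ O → (ι x - c)⁻¹ ∉ O →
      ∀ t ∈ O, t⁻¹ ∉ O → t * (ι x - c)⁻¹ ∈ O :=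
  hunr_stepU_of_avatars (K := M) ι hι (coeffEmb_mem_avatarField_F1_Qb M) hx

/-- **`hunr` for a step `ℚ̄·F0(M') ⊆ ℚ̄·F1p(M, p)`** (`M' = M p` in the application). -/
theorem hunr_stepU_F1p {M' : ℕ} [NeZero M'] (p : ℕ) [NeZero p]
    (ι : Om M' →+* ↥(laurentBaseChange Qb (F1p M p)))
    (hι : ∀ f : Om M',
      ((ι f : ↥(laurentBaseChange Qb (F1p M p))) : LaurentSeries Qb) = (f : LaurentSeries Qb))
    {ℓ : ℕ} {x : Om M'} {S : Finset (Om M')} (hx : IsCoordinate M' ℓ x S) :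
    ∀ O : ValuationSubring ↥(laurentBaseChange Qb (F1p M p)), (∀ a ∈ (Lc M').map ι, a ∈ O) →
      ∀ c ∈ (Lc M').map ι, c ∉ S.map ⟨ι, ι.injective⟩ → ι x - c ∈ O → (ι x - c)⁻¹ ∉ O →
      ∀ t ∈ O, t⁻¹ ∉ O → t * (ι x - c)⁻¹ ∈ O := by
  haveI : NeZero (M * p) := ⟨Nat.mul_ne_zero (NeZero.ne M) (NeZero.ne p)⟩
  exact hunr_stepU_of_avatars (K := M * p) ι hι (coeffEmb_mem_avatarField_F1p_Qb M p) hx

end StepF1

end Fermat.Agent.S48.H648
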