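import Fermat.Agent.S48.H648.BrF1
import Fermat.Agent.S48.Red1.Transport

/-!
# S48 / Tower A1 / A1-RED, leaf `BranchJ107` of `Red1.coreGen_top` (helper648)

`branchJ107_F1 M hle : H107.BranchJ107 (Red1.LcG (F1 M)) (Red1.iotaG M (F1 M) hle (jOm M))`
— VERBATIM the hypothesis `hbr` of `Red1.goodModel_top` / `Red1.goodFamily_top` /
`Red1.coreGen_top` for `F₀ = F1 M`, UNCONDITIONAL:
`ℚ̄·F1(M) / ℚ̄(j)` is unramified outside `0, 1728, ∞`, `e ≤ 3` over `0`, `e ≤ 2` over `1728`.

Generic form `branchJ107_of_avatars` : any `F₀ ⊆ ℚ((q))` all of whose elements have avatars (of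
some level `K`) in helper828's full-level field over `ℚ̄`; instance `branchJ107_F1p` for
`F1p M p` (level `M p`).
-/

set_option autoImplicit false
set_option linter.unusedSectionVars false
set_option linter.style.haveILetI false

noncomputable section

open ModularCurve HahnSeries

namespace Fermat.Agent.S48.H648

open Fermat.Agent.S48.H828 Fermat.Agent.S24 Fermat.Agent.S24.H997 Fermat.Agent.S48.F1
open Fermat.Agent.S18 (Qb)
open Fermat.Agent.S18.H107 Fermat.Agent.S18.Mod

/-- **`BranchJ107`** for `ℚ̄·F₀` as soon as the elements of `F₀` have avatars of some level `K`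
(`Lc` in unfolded form). -/
theorem branchJ107_of_avatars {K : ℕ} [NeZero K] {F₀ : IntermediateField ℚ (LaurentSeries ℚ)}
    (hF₀ : ∀ x ∈ F₀, coeffEmb Qb x ∈ avatarField ιK K)
    (j : ↥(laurentBaseChange Qb F₀)) (hj : (j : LaurentSeries Qb) = coeffEmb Qb jq) :
    BranchJ107 (algebraMap Qb ↥(laurentBaseChange Qb F₀)).fieldRange j where
  generic := by
    intro O hO a ha ha0 ha1 h1 h2 s hs hs'
    rw [pow_one]
    exact unramified_j_laurentBaseChange (ι := ιK) (M := K) F₀ hF₀ j hj O hO a ha ha0 ha1 h1 h2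
      s hs hs'
  zero := fun O hO h1 h2 =>
    ordLe_zero_of_embedding ιK K (baseChangeEmb ιK K F₀ hF₀) _ j (baseChange_hconst F₀ hF₀)
      (baseChange_hj F₀ hF₀ j hj) O hO h1 h2
  c1728 := fun O hO h1 h2 =>
    ordLe_1728_of_embedding ιK K (baseChangeEmb ιK K F₀ hF₀) _ j (baseChange_hconst F₀ hF₀)
      (baseChange_hj F₀ hF₀ j hj) O hO h1 h2

section Red1

open Fermat.Agent.S48.Red1

variable (M : ℕ) [NeZero M] {F₀ : IntermediateField ℚ (LaurentSeries ℚ)}
  (hle : modularFunctionFieldFull M ≤ F₀)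

theorem coe_iotaG_jOm :
    ((iotaG M F₀ hle (jOm M) : OmG F₀) : LaurentSeries Qb) = coeffEmb Qb jq := by
  rw [coe_iotaG]
  show coeffEmb Qb (qExpand ℚ 1 jq) = _
  rw [qExpand_one_apply]

/-- The leaf `hbr` of `Red1.coreGen_top`, generic in `F₀` with avatars. -/
theorem branchJ107_iotaG_of_avatars {K : ℕ} [NeZero K]
    (hF₀ : ∀ x ∈ F₀, coeffEmb Qb x ∈ avatarField ιK K) :
    BranchJ107 (LcG F₀) (iotaG M F₀ hle (jOm M)) :=
  branchJ107_of_avatars hF₀ _ (coe_iotaG_jOm M hle)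

end Red1

section F1

open Fermat.Agent.S48.Red1

/-- **The leaf `hbr` of `Red1.coreGen_top` for `F₀ = F1 M'`, VERBATIM, UNCONDITIONAL**
(`M ∣ M'` in the application; `M = M'` for the good levels). -/
theorem branchJ107_F1 (M : ℕ) [NeZero M] (M' : ℕ) [NeZero M']
    (hle : modularFunctionFieldFull M ≤ F1 M') :
    BranchJ107 (LcG (F1 M')) (iotaG M (F1 M') hle (jOm M)) :=
  branchJ107_iotaG_of_avatars (K := M') M hle (coeffEmb_mem_avatarField_F1_Qb M')

/-- The same for `F₀ = F1p M' p`. -/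
theorem branchJ107_F1p (M : ℕ) [NeZero M] (M' : ℕ) [NeZero M'] (p : ℕ) [NeZero p]
    (hle : modularFunctionFieldFull M ≤ F1p M' p) :
    BranchJ107 (LcG (F1p M' p)) (iotaG M (F1p M' p) hle (jOm M)) := by
  haveI : NeZero (M' * p) := ⟨Nat.mul_ne_zero (NeZero.ne M') (NeZero.ne p)⟩
  exact branchJ107_iotaG_of_avatars (K := M' * p) M hle (coeffEmb_mem_avatarField_F1p_Qb M' p)

end F1

end Fermat.Agent.S48.H648
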