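import Fermat.Agent.S48.H648.BrPlace

/-!
# S48 / Tower A1 / A1-BR (helper648), part 3: the field `unramified` of `S18.Alg.GoodModel`
for every field embedded in the full-level field (coordinate `j`)

Let `Ω` be ANY field with a field embedding `ψ : Ω →+* H828.IActField ι M` (e.g. the `Γ₁(M)`-field,
`q ↦ X^M`), `Lc` a subfield of constants with `ψ(Lc) = constants of IActField`, and `x : Ω` with
`ψ x = j`.  Then for every valuation subring `O` of `Ω` containing `Lc`: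

* `unramified_j_of_embedding` : over `c ∉ {0, 1728}` the element `x - c` generates the maximal
  ideal — literally the conclusion of `GoodModel.unramified` for `S = {0, 1728}`;
* `ordLe_zero_of_embedding`, `ordLe_1728_of_embedding` : `e ≤ 3` over `0`, `e ≤ 2` over `1728`
  (inputs for the coordinates `t₂`, `t₃`, see `BrCoord.lean`).
-/

set_option autoImplicit false
set_option linter.unusedSectionVars false

noncomputable section

open scoped MatrixGroups

namespace Fermat.Agent.S48.H648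

open Fermat.Agent.S48.H828

variable {E : Type*} [Field E] [CharZero E] (ι : E →+* ℂ) (M : ℕ) [NeZero M]
variable {Ω : Type*} [Field Ω]

/-- Transport of the hypotheses to the full-level field. -/
theorem exists_centredAt_of_embedding (ψ : Ω →+* IActField ι M) (Lc : Subfield Ω) (x : Ω)
    (hconst : ∀ b : E, ∃ a ∈ Lc, ψ a = iactFC ι M b) (hx : ψ x = iactFJ ι M)
    (O : ValuationSubring Ω) (hO : ∀ a ∈ Lc, a ∈ O) (c : Ω) (b : E) (hb : ψ c = iactFC ι M b)
    (h1 : x - c ∈ O) (h2 : (x - c)⁻¹ ∉ O) :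
    ∃ OL : ValuationSubring (IActField ι M), (∀ y : Ω, ψ y ∈ OL ↔ y ∈ O) ∧
      CentredAt (iactFC ι M) (iactFJ ι M) b OL := by
  obtain ⟨OL, hOL⟩ := exists_valuationSubring_comap ψ O
  refine ⟨OL, hOL, ?_, ?_, ?_⟩
  · intro b'
    obtain ⟨a, ha, hab⟩ := hconst b'
    rw [← hab, hOL]
    exact hO a ha
  · rw [← hx, ← hb, ← map_sub, hOL]
    exact h1
  · rw [← hx, ← hb, ← map_sub, ← map_inv₀, hOL]
    exact h2

/-- **Bound for the ramification over `j = c`** in any field embedded in the full-level field,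
given the bound at one analytic point. -/
theorem ordLe_of_embedding (ψ : Ω →+* IActField ι M) (Lc : Subfield Ω) (x : Ω)
    (hconst : ∀ b : E, ∃ a ∈ Lc, ψ a = iactFC ι M b) (hx : ψ x = iactFJ ι M)
    (O : ValuationSubring Ω) (hO : ∀ a ∈ Lc, a ∈ O) (c : Ω) (b : E) (hb : ψ c = iactFC ι M b)
    (h1 : x - c ∈ O) (h2 : (x - c)⁻¹ ∉ O) (k : ℕ)
    (hk : ∀ OL : ValuationSubring (IActField ι M), CentredAt (iactFC ι M) (iactFJ ι M) b OL →
      OrdLe (iactFJ ι M - iactFC ι M b) k OL) :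
    OrdLe (x - c) k O := by
  obtain ⟨OL, hOL, hcen⟩ := exists_centredAt_of_embedding ι M ψ Lc x hconst hx O hO c b hb h1 h2
  refine ordLe_comap ψ hOL ?_
  rw [map_sub, hx, hb]
  exact hk OL hcen

variable [CharZero Ω]

/-- **`GoodModel.unramified` for the coordinate `j`**, `S = {0, 1728}`. -/
theorem unramified_j_of_embedding (ψ : Ω →+* IActField ι M) (Lc : Subfield Ω) (x : Ω)
    (hconst : ∀ b : E, ∃ a ∈ Lc, ψ a = iactFC ι M b)
    (hLc : ∀ a ∈ Lc, ∃ b : E, ψ a = iactFC ι M b) (hx : ψ x = iactFJ ι M)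
    (O : ValuationSubring Ω) (hO : ∀ a ∈ Lc, a ∈ O) (c : Ω) (hc : c ∈ Lc)
    (hc0 : c ≠ 0) (hc1 : c ≠ 1728) (h1 : x - c ∈ O) (h2 : (x - c)⁻¹ ∉ O)
    (t : Ω) (ht : t ∈ O) (ht' : t⁻¹ ∉ O) : t * (x - c)⁻¹ ∈ O := by
  obtain ⟨b, hb⟩ := hLc c hc
  have hb0 : b ≠ 0 := by
    rintro rfl
    rw [map_zero] at hb
    exact hc0 ((map_eq_zero ψ).1 hb)
  have hb1 : b ≠ 1728 := by
    rintro rfl
    apply hc1
    apply ψ.injective
    rw [hb, map_ofNat, map_ofNat]
  have := ordLe_of_embedding ι M ψ Lc x hconst hx O hO c b hb h1 h2 1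
    (fun OL hOL => iact_ordLe_generic ι M b hb0 hb1 hOL) t ht ht'
  rwa [pow_one] at this

/-- `e ≤ 3` over `j = 0`. -/
theorem ordLe_zero_of_embedding (ψ : Ω →+* IActField ι M) (Lc : Subfield Ω) (x : Ω)
    (hconst : ∀ b : E, ∃ a ∈ Lc, ψ a = iactFC ι M b) (hx : ψ x = iactFJ ι M)
    (O : ValuationSubring Ω) (hO : ∀ a ∈ Lc, a ∈ O) (h1 : x ∈ O) (h2 : x⁻¹ ∉ O) :
    OrdLe x 3 O := by
  have := ordLe_of_embedding ι M ψ Lc x hconst hx O hO 0 0 (by rw [map_zero, map_zero])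
    (by rwa [sub_zero]) (by rwa [sub_zero]) 3 (fun OL hOL => iact_ordLe_zero ι M hOL)
  rwa [sub_zero] at this

/-- `e ≤ 2` over `j = 1728`. -/
theorem ordLe_1728_of_embedding (ψ : Ω →+* IActField ι M) (Lc : Subfield Ω) (x : Ω)
    (hconst : ∀ b : E, ∃ a ∈ Lc, ψ a = iactFC ι M b) (hx : ψ x = iactFJ ι M)
    (O : ValuationSubring Ω) (hO : ∀ a ∈ Lc, a ∈ O) (h1 : x - 1728 ∈ O)
    (h2 : (x - 1728)⁻¹ ∉ O) : OrdLe (x - 1728) 2 O :=
  ordLe_of_embedding ι M ψ Lc x hconst hx O hO 1728 1728 (by rw [map_ofNat, map_ofNat])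
    h1 h2 2 (fun OL hOL => iact_ordLe_1728 ι M hOL)

end Fermat.Agent.S48.H648
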