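import Fermat.Agent.S48.H648.BrAlg
import Fermat.Agent.S48.H828.IActField
import Fermat.Agent.S24.H624.Laurent
import Fermat.Agent.S24.M7.H47Level1

/-!
# S48 / Tower A1 / A1-BR (helper648), part 2: branch data of the full-level field

`L = H828.IActField ι M` is the field of modular functions of level `Γ(M)`, `E`-rational at all
cusps (helper828, I-ACT), with constants `iactFC ι M : E →+* L` and `j = iactFJ ι M`.

For EVERY valuation subring `O` of `L` containing the constants:

* `iact_ordLe_generic` : if `j - c` is a non-unit of `O`, `c ≠ 0, 1728`, then `j - c` generates the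
  maximal ideal of `O` (`t * (j - c)⁻¹ ∈ O` for all non-units `t`): **`X(M) → X(1)` is unramified
  outside `j = 0, 1728, ∞`** — the field `unramified` of `S18.Alg.GoodModel` for the coordinate `j`;
* `iact_ordLe_zero` : if `j` is a non-unit of `O` then `t ^ 3 * j⁻¹ ∈ O` (`e ≤ 3` over `j = 0`);
* `iact_ordLe_1728` : if `j - 1728` is a non-unit then `t ^ 2 * (j - 1728)⁻¹ ∈ O` (`e ≤ 2`).

Route: the analytic places `brPlace ι M τ` (order of vanishing at `τ ∈ ℍ`, S24 `laurentAt`) have
these properties by helper47's local orders of `j`; every `O` centred at `j = c` is conjugate to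
an analytic place under the finite group `SL(2,ℤ)/Γ(M)` (`ordLe_of_conj`, `Lib.ValConj`).
No degree count and no dictionary "places ↔ points" is needed.
-/

set_option autoImplicit false
set_option linter.unusedSectionVars false
set_option linter.style.haveILetI false

noncomputable section

open ModularCurve HahnSeries UpperHalfPlane Polynomial
open scoped MatrixGroups Manifold Pointwise

namespace Fermat.Agent.S48.H648

open Fermat.Agent.S48.H828 Fermat.Agent.S24.H624 Fermat.Agent.S20.L1 Fermat.Agent.S24.M7.H47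
open ModularForm EisensteinSeries

/-! ### The valuation subring attached to an embedding into Laurent series -/

section OrdPlace

variable {L C : Type*} [Field L] [Field C]

theorem order_map_inv (e : L →+* LaurentSeries C) {x : L} (hx : x ≠ 0) :
    (e x⁻¹).order = -(e x).order := by
  have h1 : e x ≠ 0 := (map_ne_zero e).2 hx
  have h2 : e x⁻¹ ≠ 0 := (map_ne_zero e).2 (inv_ne_zero hx)
  have h := HahnSeries.order_mul h1 h2
  rw [← map_mul, mul_inv_cancel₀ hx, map_one, HahnSeries.order_one] at h
  omega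

theorem order_map_pow (e : L →+* LaurentSeries C) {x : L} (hx : x ≠ 0) (k : ℕ) :
    (e (x ^ k)).order = k * (e x).order := by
  induction k with
  | zero => simp
  | succ n ih =>
    rw [pow_succ, map_mul, HahnSeries.order_mul ((map_ne_zero e).2 (pow_ne_zero _ hx))
      ((map_ne_zero e).2 hx), ih]
    push_cast
    ring

/-- The valuation subring `{x | 0 ≤ ord (e x)}` of `L`. -/
def ordPlace (e : L →+* LaurentSeries C) : ValuationSubring L where
  carrier := {x | 0 ≤ (e x).order}
  mul_mem' := by
    intro x y hx hy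
    simp only [Set.mem_ofPred_eq] at hx hy ⊢
    by_cases hx0 : x = 0
    · rw [hx0, zero_mul, map_zero, HahnSeries.order_zero]
    by_cases hy0 : y = 0
    · rw [hy0, mul_zero, map_zero, HahnSeries.order_zero]
    rw [map_mul, HahnSeries.order_mul ((map_ne_zero e).2 hx0) ((map_ne_zero e).2 hy0)]
    omega
  one_mem' := by
    simp only [Set.mem_ofPred_eq]
    rw [map_one, HahnSeries.order_one]
  add_mem' := by
    intro x y hx hy
    simp only [Set.mem_ofPred_eq] at hx hy ⊢
    by_cases hxy : e x + e y = 0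
    · rw [map_add, hxy, HahnSeries.order_zero]
    rw [map_add]
    exact le_trans (le_min hx hy) (HahnSeries.min_order_le_order_add hxy)
  zero_mem' := by
    simp only [Set.mem_ofPred_eq]
    rw [map_zero, HahnSeries.order_zero]
  neg_mem' := by
    intro x hx
    simp only [Set.mem_ofPred_eq] at hx ⊢
    rwa [map_neg, HahnSeries.order_neg]
  mem_or_inv_mem' := by
    intro x
    simp only [Set.mem_ofPred_eq]
    by_cases hx0 : x = 0
    · left
      rw [hx0, map_zero, HahnSeries.order_zero]
    rw [order_map_inv e hx0]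
    omega

theorem mem_ordPlace (e : L →+* LaurentSeries C) (x : L) :
    x ∈ ordPlace e ↔ 0 ≤ (e x).order := Iff.rfl

/-- In `ordPlace e`, an element `y` of order `k` satisfies `OrdLe y k`. -/
theorem ordLe_ordPlace (e : L →+* LaurentSeries C) {y : L} (hy0 : y ≠ 0) {k : ℕ}
    (hy : (e y).order = k) : OrdLe y k (ordPlace e) := by
  intro t ht htinv
  rw [mem_ordPlace] at ht htinv ⊢
  have ht0 : t ≠ 0 := by
    rintro rfl
    apply htinv
    rw [inv_zero, map_zero, HahnSeries.order_zero]
  rw [order_map_inv e ht0] at htinv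
  have h1 : 1 ≤ (e t).order := by omega
  rw [map_mul, HahnSeries.order_mul ((map_ne_zero e).2 (pow_ne_zero _ ht0))
    ((map_ne_zero e).2 (inv_ne_zero hy0)), order_map_pow e ht0, order_map_inv e hy0, hy]
  nlinarith

theorem centredAt_ordPlace {E : Type*} [Field E] (e : L →+* LaurentSeries C) (φ : E →+* L)
    (j : L) (c : E) (hconst : ∀ a : E, 0 ≤ (e (φ a)).order) (hpos : 0 < (e (j - φ c)).order) :
    CentredAt φ j c (ordPlace e) where
  const_mem := hconst
  sub_mem := hpos.le
  inv_notMem := by
    have h0 : j - φ c ≠ 0 := by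
      intro h
      rw [h, map_zero, HahnSeries.order_zero] at hpos
      exact lt_irrefl _ hpos
    rw [mem_ordPlace, order_map_inv e h0]
    omega

end OrdPlace

/-! ### The analytic places of `IActField` -/

variable {E : Type*} [Field E] [CharZero E] (ι : E →+* ℂ) (M : ℕ) [NeZero M]

/-- The inclusion of `iactRing` into the ring of holomorphic functions on `ℍ`. -/
def brToHolo : iactRing ι M →+* holoRing where
  toFun f := ⟨f.1, f.2.1⟩
  map_one' := rfl
  map_mul' _ _ := rfl
  map_zero' := rfl
  map_add' _ _ := rfl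

theorem brToHolo_injective : Function.Injective (brToHolo ι M) := by
  intro f g h
  exact Subtype.ext (congrArg (fun x : holoRing => (x : ℍ → ℂ)) h)

theorem brToHolo_apply (f : iactRing ι M) : ((brToHolo ι M f : holoRing) : ℍ → ℂ) = f.1 := rfl

/-- Taylor expansion at `τ` on `iactRing`. -/
def brTaylor (τ : ℍ) : iactRing ι M →+* LaurentSeries ℂ :=
  (taylorLaurent τ).comp (brToHolo ι M)

theorem brTaylor_injective (τ : ℍ) : Function.Injective (brTaylor ι M τ) :=
  (taylorLaurent_injective τ).comp (brToHolo_injective ι M)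

/-- Laurent expansion at `τ` on `IActField`. -/
def brExp (τ : ℍ) : IActField ι M →+* LaurentSeries ℂ :=
  IsFractionRing.lift (brTaylor_injective ι M τ)

theorem brExp_algebraMap (τ : ℍ) (f : iactRing ι M) :
    brExp ι M τ (algebraMap (iactRing ι M) (IActField ι M) f)
      = laurentAt τ (algebraMap holoRing MerH (brToHolo ι M f)) := by
  rw [brExp, IsFractionRing.lift_algebraMap, laurentAt_algebraMap]
  rfl

/-- The analytic place at `τ`: functions regular at `τ`. -/
def brPlace (τ : ℍ) : ValuationSubring (IActField ι M) := ordPlace (brExp ι M τ)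

theorem brExp_const (τ : ℍ) (a : E) : brExp ι M τ (iactFC ι M a) = HahnSeries.C (ι a) := by
  rw [iactFC, RingHom.comp_apply, brExp_algebraMap]
  exact laurentAt_const τ (ι a)

theorem brToHolo_J_sub (c : E) (τ : ℍ) (hτ : jFun τ = ι c) :
    (fun w : ℂ => jFun (ofComplex w) - jFun τ)
      = ((brToHolo ι M (iactJ ι M - iactC ι M c) : holoRing) : ℍ → ℂ) ∘ ofComplex := by
  funext w
  rw [hτ]
  rfl

theorem brExp_J_sub_order (c : E) (τ : ℍ) (hτ : jFun τ = ι c) {k : ℕ}
    (hk : analyticOrderAt (fun w : ℂ => jFun (ofComplex w) - jFun τ) (τ : ℂ) = k) :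
    (brExp ι M τ (iactFJ ι M - iactFC ι M c)).order = k := by
  have e1 : iactFJ ι M - iactFC ι M c
      = algebraMap (iactRing ι M) (IActField ι M) (iactJ ι M - iactC ι M c) := by
    rw [map_sub]; rfl
  have hord : ordAt τ ((brToHolo ι M (iactJ ι M - iactC ι M c) : holoRing) : ℍ → ℂ) = k := by
    rw [ordAt_def, ← brToHolo_J_sub ι M c τ hτ, hk]
  have hne : brToHolo ι M (iactJ ι M - iactC ι M c) ≠ 0 := by
    intro h0
    rw [h0] at hord
    have h1 : ordAt τ ((0 : holoRing) : ℍ → ℂ) = ⊤ := ordAt_zero τ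
    rw [h1] at hord
    exact ENat.top_ne_natCast k hord
  rw [e1, brExp_algebraMap, order_laurentAt_algebraMap τ hne, hord]
  simp

theorem brPlace_centredAt (c : E) (τ : ℍ) (hτ : jFun τ = ι c) {k : ℕ} (hk0 : 0 < k)
    (hk : analyticOrderAt (fun w : ℂ => jFun (ofComplex w) - jFun τ) (τ : ℂ) = k) :
    CentredAt (iactFC ι M) (iactFJ ι M) c (brPlace ι M τ) := by
  refine centredAt_ordPlace _ _ _ _ (fun a => ?_) ?_
  · rw [brExp_const, HahnSeries.order_C]
  · rw [brExp_J_sub_order ι M c τ hτ hk]
    exact_mod_cast hk0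

theorem brPlace_ordLe (c : E) (τ : ℍ) (hτ : jFun τ = ι c) {k : ℕ} (hk0 : 0 < k)
    (hk : analyticOrderAt (fun w : ℂ => jFun (ofComplex w) - jFun τ) (τ : ℂ) = k) :
    OrdLe (iactFJ ι M - iactFC ι M c) k (brPlace ι M τ) :=
  ordLe_ordPlace _ (brPlace_centredAt ι M c τ hτ hk0 hk).sub_ne_zero
    (brExp_J_sub_order ι M c τ hτ hk)

/-! ### Conjugacy: all places over `j = c` -/

theorem iact_quot_smul_C (q : SL(2, ℤ) ⧸ CongruenceSubgroup.Gamma M) (a : E) :
    iactQuotHom ι M q (iactFC ι M a) = iactFC ι M a := by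
  obtain ⟨g, rfl⟩ := QuotientGroup.mk_surjective q
  rw [iactQuotHom_mk, iactFC, RingHom.comp_apply, iact_smul_algebraMap, iact_smul_C]

theorem iact_quot_smul_J (q : SL(2, ℤ) ⧸ CongruenceSubgroup.Gamma M) :
    iactQuotHom ι M q (iactFJ ι M) = iactFJ ι M := by
  obtain ⟨g, rfl⟩ := QuotientGroup.mk_surjective q
  rw [iactQuotHom_mk, iactFJ, iact_smul_algebraMap, iact_smul_J]

/-- **Key transfer**: a bound for the order of `j - c` at ONE analytic point over `c` holds at
EVERY valuation subring of `IActField` centred at `j = c`. -/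
theorem iact_ordLe_of_analytic (c : E) (τ : ℍ) (hτ : jFun τ = ι c) {k : ℕ} (hk0 : 0 < k)
    (hk : analyticOrderAt (fun w : ℂ => jFun (ofComplex w) - jFun τ) (τ : ℂ) = k)
    {O : ValuationSubring (IActField ι M)}
    (hO : CentredAt (iactFC ι M) (iactFJ ι M) c O) :
    OrdLe (iactFJ ι M - iactFC ι M c) k O := by
  letI := iactQuotAction ι M
  refine ordLe_of_conj (G := SL(2, ℤ) ⧸ CongruenceSubgroup.Gamma M) (iactFC ι M) (iactFJ ι M) c
    (fun q a => iact_quot_smul_C ι M q a) (fun q => iact_quot_smul_J ι M q)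
    (fun x hx => (iactQuot_fixed_iff x).1 hx)
    (brPlace_centredAt ι M c τ hτ hk0 hk) hO (brPlace_ordLe ι M c τ hτ hk0 hk)

/-- **`X(M) → X(1)` is unramified outside `j ∈ {0, 1728, ∞}`.** -/
theorem iact_ordLe_generic (c : E) (hc0 : c ≠ 0) (hc1 : c ≠ 1728)
    {O : ValuationSubring (IActField ι M)}
    (hO : CentredAt (iactFC ι M) (iactFJ ι M) c O) :
    OrdLe (iactFJ ι M - iactFC ι M c) 1 O := by
  obtain ⟨τ, hτ⟩ := jFun_surjective (ι c)
  have h4 : E₄ τ ≠ 0 := by
    intro h
    have := (jFun_eq_zero_iff τ).2 h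
    rw [hτ] at this
    exact hc0 ((map_eq_zero ι).1 this)
  have h6 : E₆ τ ≠ 0 := by
    intro h
    have := (jFun_eq_1728_iff τ).2 h
    rw [hτ] at this
    apply hc1
    apply ι.injective
    rw [this, map_ofNat]
  exact iact_ordLe_of_analytic ι M c τ hτ one_pos
    (by exact_mod_cast analyticOrderAt_jFun_sub_generic h4 h6) hO

/-- Ramification over `j = 0` is at most `3`. -/
theorem iact_ordLe_zero {O : ValuationSubring (IActField ι M)}
    (hO : CentredAt (iactFC ι M) (iactFJ ι M) 0 O) :
    OrdLe (iactFJ ι M - iactFC ι M 0) 3 O := by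
  have hτ : jFun rho = ι 0 := by rw [map_zero]; exact jFun_rho
  exact iact_ordLe_of_analytic ι M 0 rho hτ (by norm_num)
    (by exact_mod_cast analyticOrderAt_jFun_sub_of_E₄ E₄_rho) hO

/-- Ramification over `j = 1728` is at most `2`. -/
theorem iact_ordLe_1728 {O : ValuationSubring (IActField ι M)}
    (hO : CentredAt (iactFC ι M) (iactFJ ι M) 1728 O) :
    OrdLe (iactFJ ι M - iactFC ι M 1728) 2 O := by
  have hτ : jFun UpperHalfPlane.I = ι 1728 := by rw [map_ofNat]; exact jFun_I
  exact iact_ordLe_of_analytic ι M 1728 UpperHalfPlane.I hτ (by norm_num)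
    (by exact_mod_cast analyticOrderAt_jFun_sub_of_E₆ E₆_I) hO

end Fermat.Agent.S48.H648
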