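/-
S48 (Deligne–Serre), piece (P4) "elementary Rankin bound", final statements (helper648).

For a weight one cusp form `f` on `Γ₁(N)` satisfying the hypotheses of the frozen statement S48
(`a₁ = 1`, Hecke relations at the primes `p ∤ N`):

* `qCoeff_prod_primes` : `a (∏_{p ∈ T} p) = ∏_{p ∈ T} a p` for finite sets `T` of primes `∤ N`;
* `exists_eulerProduct_le` : `∏_{p ∈ P} (1 + ‖a p‖² p^{-σ}) ≤ C / (σ - 1)` for `1 < σ ≤ 2`;
* `exists_sum_primes_le` : `∑_{p ∈ P} ‖a p‖² p^{-σ} ≤ log (1/(σ-1)) + C + 2 β²` if `‖a p‖² ≤ β` on `P`;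
* `exists_sum_primes_ge_le` : `c ∑_{p ∈ P} p^{-σ} ≤ log (1/(σ-1)) + C + 2 c²` if `‖a p‖² ≥ c` on `P`
  (so the primes with `‖a p‖² ≥ c` have upper Dirichlet density `≤ 1/c`).

No Rankin–Selberg continuation is used: only Parseval on a horocycle and Mathlib's pointwise
bound `‖f τ‖ ≤ C (im τ)^{-k/2}` for cusp forms.
-/
import Mathlib
import Fermat.Prelude.Def_FLTPrelim_Modularity
import Fermat.Agent.S48.H648.MeanSquare
import Fermat.Agent.S48.H648.DirichletBound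

set_option autoImplicit false

open CongruenceSubgroup UpperHalfPlane
open scoped MatrixGroups

noncomputable section

namespace Fermat.Agent.S48.H648

lemma one_mem_strictPeriods_Gamma1 (N : ℕ) :
    (1 : ℝ) ∈ (Subgroup.map (Matrix.SpecialLinearGroup.mapGL ℝ) (Gamma1 N)).strictPeriods := by
  have hT : ModularGroup.T ∈ Gamma1 N := by
    rw [Gamma1_mem]
    simp [ModularGroup.T]
  rw [Subgroup.strictPeriods_eq_zmultiples_one_of_T_mem hT]
  exact AddSubgroup.mem_zmultiples (1 : ℝ)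

section General

variable {Γ : Subgroup (GL (Fin 2) ℝ)} [Γ.IsArithmetic] {F : Type*} [FunLike F ℍ ℂ]
  [CuspFormClass F Γ 1]

/-- Weight one, strict period one: every finite partial sum of `∑ ‖a_n‖² n^{-σ}` is
`≤ C / (σ - 1)` for `1 < σ ≤ 2`. -/
theorem exists_dirichlet_sum_le (f : F) (hΓ : (1 : ℝ) ∈ Γ.strictPeriods) :
    ∃ C : ℝ, 0 ≤ C ∧ ∀ σ : ℝ, 1 < σ → σ ≤ 2 → ∀ s : Finset ℕ, (∀ n ∈ s, 1 ≤ n) →
      ∑ n ∈ s, ‖ModularFormClass.qCoeff f n‖ ^ 2 * (n : ℝ) ^ (-σ) ≤ C / (σ - 1) := by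
  obtain ⟨C, hC, hbd⟩ := exists_sum_sq_coeff_le (Γ := Γ) (k := 1) f one_pos hΓ
  refine ⟨2 ^ ((1:ℝ) + 1) * C, by positivity, fun σ hσ hσ' s hs => ?_⟩
  have h := sum_mul_rpow_neg_le (b := fun n => ‖ModularFormClass.qCoeff f n‖ ^ 2)
    (fun n => by positivity) (C := C) (κ := 1) hC zero_le_one
    (fun x hx => by
      have := hbd x hx
      simpa [ModularFormClass.qCoeff] using this)
    hσ (by linarith) s hs
  exact h

end General

section S48

variable (N : ℕ) [NeZero N] (ε : DirichletCharacter ℂ N) (f : CuspForm (Gamma1 N) 1)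

omit [NeZero N] in
/-- The Hecke relations of S48 give multiplicativity on squarefree products of primes `∤ N`. -/
theorem qCoeff_prod_primes (hf₁ : ModularFormClass.qCoeff f 1 = 1)
    (hT : ∀ p : ℕ, p.Prime → ¬ p ∣ N → ∀ n : ℕ,
        ModularFormClass.qCoeff f (p * n) +
            ε (p : ZMod N) * (if p ∣ n then ModularFormClass.qCoeff f (n / p) else 0) =
          ModularFormClass.qCoeff f p * ModularFormClass.qCoeff f n)
    (T : Finset ℕ) (hTp : ∀ p ∈ T, p.Prime ∧ ¬ p ∣ N) :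
    ModularFormClass.qCoeff f (∏ p ∈ T, p) = ∏ p ∈ T, ModularFormClass.qCoeff f p := by
  classical
  induction T using Finset.induction_on with
  | empty => simpa using hf₁
  | insert q T hq ih =>
    have hTp' : ∀ p ∈ T, p.Prime ∧ ¬ p ∣ N := fun p hp => hTp p (Finset.mem_insert_of_mem hp)
    obtain ⟨hqp, hqN⟩ := hTp q (Finset.mem_insert_self q T)
    rw [Finset.prod_insert hq, Finset.prod_insert hq, ← ih hTp']
    have hnd : ¬ q ∣ ∏ p ∈ T, p := by
      intro hdvd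
      obtain ⟨p, hp, hqp'⟩ := (Prime.dvd_finsetProd_iff hqp.prime _).mp hdvd
      have : q = p := (Nat.prime_dvd_prime_iff_eq hqp (hTp' p hp).1).mp hqp'
      exact hq (this ▸ hp)
    have := hT q hqp hqN (∏ p ∈ T, p)
    rw [if_neg hnd, mul_zero, add_zero] at this
    exact this

/-- **Euler product form of the elementary Rankin bound** for the form of S48. -/
theorem exists_eulerProduct_le (hf₁ : ModularFormClass.qCoeff f 1 = 1)
    (hT : ∀ p : ℕ, p.Prime → ¬ p ∣ N → ∀ n : ℕ,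
        ModularFormClass.qCoeff f (p * n) +
            ε (p : ZMod N) * (if p ∣ n then ModularFormClass.qCoeff f (n / p) else 0) =
          ModularFormClass.qCoeff f p * ModularFormClass.qCoeff f n) :
    ∃ C : ℝ, 1 ≤ C ∧ ∀ σ : ℝ, 1 < σ → σ ≤ 2 → ∀ P : Finset ℕ, (∀ p ∈ P, p.Prime ∧ ¬ p ∣ N) →
      ∏ p ∈ P, (1 + ‖ModularFormClass.qCoeff f p‖ ^ 2 * (p : ℝ) ^ (-σ)) ≤ C / (σ - 1) := by
  obtain ⟨C, hC, hbd⟩ := exists_dirichlet_sum_le (Γ := (Gamma1 N).map (Matrix.SpecialLinearGroup.mapGL ℝ))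
    f (one_mem_strictPeriods_Gamma1 N)
  have key : ∀ σ : ℝ, 1 < σ → σ ≤ 2 → ∀ P : Finset ℕ, (∀ p ∈ P, p.Prime ∧ ¬ p ∣ N) →
      ∏ p ∈ P, (1 + ‖ModularFormClass.qCoeff f p‖ ^ 2 * (p : ℝ) ^ (-σ)) ≤ C / (σ - 1) := by
    intro σ hσ hσ' P hP
    refine prod_one_add_le (b := fun n => ‖ModularFormClass.qCoeff f n‖ ^ 2)
      (hbd σ hσ hσ') P (fun p hp => (hP p hp).1) fun T hTP => ?_
    rw [qCoeff_prod_primes N ε f hf₁ hT T fun p hp => hP p (hTP hp), norm_prod,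
      Finset.prod_pow]
  have hC1 : 1 ≤ C := by
    have := key 2 (by norm_num) le_rfl ∅ (by simp)
    norm_num at this
    exact this
  exact ⟨C, hC1, key⟩

/-- Prime sum bound where the coefficients are bounded. -/
theorem exists_sum_primes_le (hf₁ : ModularFormClass.qCoeff f 1 = 1)
    (hT : ∀ p : ℕ, p.Prime → ¬ p ∣ N → ∀ n : ℕ,
        ModularFormClass.qCoeff f (p * n) +
            ε (p : ZMod N) * (if p ∣ n then ModularFormClass.qCoeff f (n / p) else 0) =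
          ModularFormClass.qCoeff f p * ModularFormClass.qCoeff f n) :
    ∃ C : ℝ, ∀ σ : ℝ, 1 < σ → σ ≤ 2 → ∀ P : Finset ℕ, (∀ p ∈ P, p.Prime ∧ ¬ p ∣ N) →
      ∀ β : ℝ, (∀ p ∈ P, ‖ModularFormClass.qCoeff f p‖ ^ 2 ≤ β) →
      ∑ p ∈ P, ‖ModularFormClass.qCoeff f p‖ ^ 2 * (p : ℝ) ^ (-σ) ≤
        Real.log (1 / (σ - 1)) + C + 2 * β ^ 2 := by
  obtain ⟨C, hC1, hC⟩ := exists_eulerProduct_le N ε f hf₁ hT
  refine ⟨Real.log C, fun σ hσ hσ' P hP β hβ => ?_⟩
  have h := sum_primes_le_of_prod_le (b := fun n => ‖ModularFormClass.qCoeff f n‖ ^ 2)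
    (fun n => by positivity) hσ.le P (fun p hp => (hP p hp).1) (hC σ hσ hσ' P hP) hβ
  have hlog : Real.log (C / (σ - 1)) = Real.log (1 / (σ - 1)) + Real.log C := by
    rw [div_eq_mul_one_div, Real.log_mul (by positivity) (by
      have : 0 < σ - 1 := by linarith
      positivity)]
    ring
  rw [hlog] at h
  exact h

/-- The primes with `‖a_p‖² ≥ c` have small `σ`-mass (upper Dirichlet density `≤ 1/c`). -/
theorem exists_sum_primes_ge_le (hf₁ : ModularFormClass.qCoeff f 1 = 1)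
    (hT : ∀ p : ℕ, p.Prime → ¬ p ∣ N → ∀ n : ℕ,
        ModularFormClass.qCoeff f (p * n) +
            ε (p : ZMod N) * (if p ∣ n then ModularFormClass.qCoeff f (n / p) else 0) =
          ModularFormClass.qCoeff f p * ModularFormClass.qCoeff f n) :
    ∃ C : ℝ, ∀ σ : ℝ, 1 < σ → σ ≤ 2 → ∀ P : Finset ℕ, (∀ p ∈ P, p.Prime ∧ ¬ p ∣ N) →
      ∀ c : ℝ, 0 ≤ c → (∀ p ∈ P, c ≤ ‖ModularFormClass.qCoeff f p‖ ^ 2) →
      c * ∑ p ∈ P, (p : ℝ) ^ (-σ) ≤ Real.log (1 / (σ - 1)) + C + 2 * c ^ 2 := by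
  obtain ⟨C, hC1, hC⟩ := exists_eulerProduct_le N ε f hf₁ hT
  refine ⟨Real.log C, fun σ hσ hσ' P hP c hc hcb => ?_⟩
  have h := sum_primes_ge_le_of_prod_le (b := fun n => ‖ModularFormClass.qCoeff f n‖ ^ 2)
    hσ.le hc P (fun p hp => (hP p hp).1) (hC σ hσ hσ' P hP) hcb
  have hlog : Real.log (C / (σ - 1)) = Real.log (1 / (σ - 1)) + Real.log C := by
    rw [div_eq_mul_one_div, Real.log_mul (by positivity) (by
      have : 0 < σ - 1 := by linarith
      positivity)]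
    ring
  rw [hlog] at h
  exact h

end S48

end Fermat.Agent.S48.H648
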